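/-
Program TW (S56), WP1 (cocycle dictionary), file 1 (helper95): pure algebra.

`2 × 2` matrices over the dual numbers `k[ε]` split as `R = R₀ + ε R₁`; a homomorphism
`r : G →* M₂(k[ε])` with residual part `ρ = r₀` is the same as a 1-cocycle
`c g = r₁(g) ρ(g)⁻¹` of `G` in `M₂(k)` with the adjoint action `g • X = ρ(g) X ρ(g)⁻¹`:

* `cocyc_mul`     : `c (g h) = ρ g * c h * ρ g⁻¹ + c g`;
* `det_eq`        : `det (r g) = det (ρ g) (1 + ε tr (c g))`;
* `conj_iff`      : `r, r'` with the same residual part are conjugate by a unit of `M₂(k[ε])`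
                    reducing to a scalar iff `c - c'` is a coboundary;
* `liftHom`       : conversely a cocycle gives a lift.
Mathlib only; `G` is an arbitrary group (so that the same file serves `G_ℚ` and the local groups).
-/
import Mathlib

set_option autoImplicit false

namespace Fermat.Agent.TW.Cocycle.DualMat95

open Matrix TrivSqZeroExt

variable {k : Type} [Field k]

local notation "M₂" => Matrix (Fin 2) (Fin 2)

/-- The residual part `R₀` of a matrix over the dual numbers, as a ring homomorphism. -/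
noncomputable def fstM : M₂ (DualNumber k) →+* M₂ k :=
  ((TrivSqZeroExt.fstHom k k k : DualNumber k →ₐ[k] k) : DualNumber k →+* k).mapMatrix

/-- The `ε`-part `R₁` of a matrix over the dual numbers. -/
def sndM (R : M₂ (DualNumber k)) : M₂ k := R.map TrivSqZeroExt.snd

/-- `X + ε Y`. -/
def ofParts (X Y : M₂ k) : M₂ (DualNumber k) := Matrix.of fun i j => (X i j, Y i j)

@[simp] theorem fstM_apply (R : M₂ (DualNumber k)) (i j : Fin 2) : fstM R i j = (R i j).fst := rfl

@[simp] theorem sndM_apply (R : M₂ (DualNumber k)) (i j : Fin 2) : sndM R i j = (R i j).snd := rfl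

@[simp] theorem ofParts_apply (X Y : M₂ k) (i j : Fin 2) : ofParts X Y i j = (X i j, Y i j) := rfl

@[simp] theorem fstM_ofParts (X Y : M₂ k) : fstM (ofParts X Y) = X := by
  ext i j; rfl

@[simp] theorem sndM_ofParts (X Y : M₂ k) : sndM (ofParts X Y) = Y := by
  ext i j; rfl

theorem ofParts_fstM_sndM (R : M₂ (DualNumber k)) : ofParts (fstM R) (sndM R) = R := by
  ext i j <;> rfl

theorem ext_parts {R S : M₂ (DualNumber k)} (h0 : fstM R = fstM S) (h1 : sndM R = sndM S) :
    R = S := by
  rw [← ofParts_fstM_sndM R, ← ofParts_fstM_sndM S, h0, h1]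

@[simp] theorem sndM_one : sndM (1 : M₂ (DualNumber k)) = 0 := by
  ext i j
  by_cases h : i = j
  · subst h; simp [sndM]
  · simp [sndM, Matrix.one_apply_ne h]

theorem sndM_mul (R S : M₂ (DualNumber k)) :
    sndM (R * S) = fstM R * sndM S + sndM R * fstM S := by
  ext i j
  simp only [sndM_apply, Matrix.mul_apply, Matrix.add_apply, fstM_apply, Fin.sum_univ_two,
    TrivSqZeroExt.snd_add, TrivSqZeroExt.snd_mul, smul_eq_mul, MulOpposite.smul_eq_mul_unop,
    MulOpposite.unop_op]
  ring

theorem sndM_add (R S : M₂ (DualNumber k)) : sndM (R + S) = sndM R + sndM S := by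
  ext i j; simp

theorem ofParts_mul (X Y X' Y' : M₂ k) :
    ofParts X Y * ofParts X' Y' = ofParts (X * X') (X * Y' + Y * X') := by
  apply ext_parts
  · rw [map_mul]; simp
  · rw [sndM_mul]; simp

theorem ofParts_one : ofParts (1 : M₂ k) 0 = 1 := by
  apply ext_parts
  · rw [map_one]; simp
  · simp

/-- A matrix over the dual numbers is a unit as soon as its residual part is. -/
theorem isUnit_of_isUnit_fstM {R : M₂ (DualNumber k)} (h : IsUnit (fstM R)) : IsUnit R := by
  obtain ⟨u, hu⟩ := h
  have h1 : (u : M₂ k) * ((u⁻¹ : (M₂ k)ˣ) : M₂ k) = 1 := u.mul_inv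
  have h2 : ((u⁻¹ : (M₂ k)ˣ) : M₂ k) * (u : M₂ k) = 1 := u.inv_mul
  set U : M₂ k := (u : M₂ k) with hU
  set V : M₂ k := ((u⁻¹ : (M₂ k)ˣ) : M₂ k) with hV
  have hR : R = ofParts U (sndM R) := by
    rw [← ofParts_fstM_sndM R, hu]; simp
  refine ⟨⟨R, ofParts V (-(V * sndM R * V)), ?_, ?_⟩, rfl⟩
  · rw [hR, ofParts_mul, ← ofParts_one]
    congr 1
    · simp [sndM_ofParts]
      rw [← mul_assoc, ← mul_assoc, h1, one_mul]
      simp
  · rw [hR, ofParts_mul, ← ofParts_one]
    congr 1
    · simp [sndM_ofParts]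
      rw [mul_assoc, mul_assoc, h2]
      simp

section Group

variable {G : Type} [Group G]

/-- The residual representation of `r`. -/
noncomputable def resid (r : G →* M₂ (DualNumber k)) : G →* M₂ k :=
  (fstM (k := k) : M₂ (DualNumber k) →* M₂ k).comp r

@[simp] theorem resid_apply (r : G →* M₂ (DualNumber k)) (g : G) : resid r g = fstM (r g) := rfl

theorem resid_mul_inv (r : G →* M₂ (DualNumber k)) (g : G) : resid r g * resid r g⁻¹ = 1 := by
  rw [← map_mul, mul_inv_cancel, map_one]

theorem resid_inv_mul (r : G →* M₂ (DualNumber k)) (g : G) : resid r g⁻¹ * resid r g = 1 := by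
  rw [← map_mul, inv_mul_cancel, map_one]

/-- The cocycle `c g = r₁(g) ρ(g)⁻¹` attached to `r`. -/
noncomputable def cocyc (r : G →* M₂ (DualNumber k)) (g : G) : M₂ k :=
  sndM (r g) * resid r g⁻¹

theorem sndM_eq_cocyc_mul (r : G →* M₂ (DualNumber k)) (g : G) :
    sndM (r g) = cocyc r g * resid r g := by
  rw [cocyc, mul_assoc, resid_inv_mul, mul_one]

/-- `r g = (1 + ε c g) ρ g`. -/
theorem eq_ofParts_cocyc (r : G →* M₂ (DualNumber k)) (g : G) :
    r g = ofParts (resid r g) (cocyc r g * resid r g) := by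
  rw [← sndM_eq_cocyc_mul, resid_apply, ofParts_fstM_sndM]

/-- The cocycle identity for the adjoint action. -/
theorem cocyc_mul (r : G →* M₂ (DualNumber k)) (g h : G) :
    cocyc r (g * h) = resid r g * cocyc r h * resid r g⁻¹ + cocyc r g := by
  have h1 : resid r (g * h)⁻¹ = resid r h⁻¹ * resid r g⁻¹ := by
    rw [_root_.mul_inv_rev, map_mul]
  rw [cocyc, map_mul, sndM_mul, h1, add_mul, cocyc, cocyc]
  congr 1
  · simp only [resid_apply, mul_assoc]
  · have := resid_mul_inv r h
    simp only [resid_apply] at this ⊢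
    rw [mul_assoc (sndM (r g)), ← mul_assoc (fstM (r h)), this, one_mul]

@[simp] theorem cocyc_one (r : G →* M₂ (DualNumber k)) : cocyc r 1 = 0 := by
  simp [cocyc]

/-- The determinant of `r g` in terms of the cocycle. -/
theorem det_eq (r : G →* M₂ (DualNumber k)) (g : G) :
    (r g).det = ((resid r g).det, (resid r g).det * (cocyc r g).trace) := by
  have hs := sndM_eq_cocyc_mul r g
  have e : ∀ i j, (r g i j).snd = (cocyc r g * resid r g) i j := fun i j => by
    rw [← hs]; rfl
  have f : ∀ i j, (r g i j).fst = resid r g i j := fun i j => rfl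
  apply TrivSqZeroExt.ext
  · simp only [Matrix.det_fin_two, TrivSqZeroExt.fst_sub, TrivSqZeroExt.fst_mul, f,
      TrivSqZeroExt.fst_mk]
  · simp only [Matrix.det_fin_two, Matrix.trace_fin_two, TrivSqZeroExt.snd_sub,
      TrivSqZeroExt.snd_mul, e, f, TrivSqZeroExt.snd_mk, Matrix.mul_apply, Fin.sum_univ_two,
      smul_eq_mul, MulOpposite.smul_eq_mul_unop, MulOpposite.unop_op]
    ring

/-- `det (r g)` is the constant `det (ρ g)` iff the cocycle has trace zero at `g`. -/
theorem det_eq_inl_iff (r : G →* M₂ (DualNumber k)) (g : G) :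
    (r g).det = TrivSqZeroExt.inl (resid r g).det ↔ (cocyc r g).trace = 0 := by
  have hdet : (resid r g).det ≠ 0 := by
    have h := resid_mul_inv r g
    have := congrArg Matrix.det h
    rw [Matrix.det_mul, Matrix.det_one] at this
    exact left_ne_zero_of_mul_eq_one this
  rw [det_eq]
  constructor
  · intro h
    have := congrArg TrivSqZeroExt.snd h
    simp only [TrivSqZeroExt.snd_inl] at this
    exact (mul_eq_zero.mp this).resolve_left hdet
  · intro h
    rw [h, mul_zero]; rfl

/-- Conjugating `r` into `r'` (same residual part) by `1 + ε X`. -/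
theorem conj_of_coboundary {r r' : G →* M₂ (DualNumber k)} (hres : resid r = resid r')
    (X : M₂ k) (h : ∀ g, cocyc r g - cocyc r' g = resid r g * X * resid r g⁻¹ - X) :
    ∀ g, ofParts 1 X * r g = r' g * ofParts 1 X := by
  intro g
  have hg : resid r' g = resid r g := by rw [hres]
  rw [eq_ofParts_cocyc r g, eq_ofParts_cocyc r' g, hg, ofParts_mul, ofParts_mul]
  congr 1
  · rw [one_mul, mul_one]
  · have h1 := h g
    have h2 : cocyc r g = cocyc r' g + (resid r g * X * resid r g⁻¹ - X) := by
      rw [← h1]; abel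
    rw [one_mul, mul_one, h2, add_mul, sub_mul, mul_assoc (resid r g * X),
      resid_inv_mul, mul_one]
    abel

/-- If `u r = r' u` for `u` with scalar residual part `λ ≠ 0`, then `c - c'` is the coboundary of
`λ⁻¹ u₁`. -/
theorem coboundary_of_conj {r r' : G →* M₂ (DualNumber k)} (hres : resid r = resid r')
    (u : M₂ (DualNumber k)) (lam : k) (hlam : lam ≠ 0) (hu : fstM u = lam • (1 : M₂ k))
    (h : ∀ g, u * r g = r' g * u) :
    ∀ g, cocyc r g - cocyc r' g =
      resid r g * (lam⁻¹ • sndM u) * resid r g⁻¹ - lam⁻¹ • sndM u := by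
  intro g
  have hg : resid r' g = resid r g := by rw [hres]
  set ρ := resid r g with hρ
  set ρi := resid r g⁻¹ with hρi
  set c := cocyc r g with hc
  set c' := cocyc r' g with hc'
  set U := sndM u with hU
  have hinv : ρ * ρi = 1 := resid_mul_inv r g
  have h1 := congrArg sndM (h g)
  rw [sndM_mul, sndM_mul, hu, sndM_eq_cocyc_mul r g, sndM_eq_cocyc_mul r' g] at h1
  have e1 : fstM (r g) = ρ := rfl
  have e2 : fstM (r' g) = ρ := hg
  rw [e1, e2, hg] at h1
  -- `h1 : lam • 1 * (c * ρ) + U * ρ = ρ * U + c' * ρ * (lam • 1)`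
  have h2 : lam • (c * ρ) + U * ρ = ρ * U + lam • (c' * ρ) := by
    rw [smul_mul_assoc, one_mul, mul_smul_comm, mul_one] at h1
    exact h1
  have h3 : (lam • (c * ρ) + U * ρ) * ρi = (ρ * U + lam • (c' * ρ)) * ρi := by rw [h2]
  rw [add_mul, add_mul, smul_mul_assoc, smul_mul_assoc, mul_assoc c, mul_assoc c', hinv, mul_one,
    mul_one] at h3
  -- `h3 : lam • c + U * ρ * ρi = ρ * U * ρi + lam • c'`
  have h4 : lam • (c - c') = ρ * U * ρi - U * ρ * ρi := by
    rw [smul_sub, sub_eq_sub_iff_add_eq_add]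
    rw [h3]
  have h5 : U * ρ * ρi = U := by rw [mul_assoc, hinv, mul_one]
  rw [h5] at h4
  calc c - c' = lam⁻¹ • (lam • (c - c')) := by
        rw [smul_smul, inv_mul_cancel₀ hlam, one_smul]
    _ = ρ * (lam⁻¹ • U) * ρi - lam⁻¹ • U := by
        rw [h4, smul_sub, mul_smul_comm, smul_mul_assoc]

end Group

end Fermat.Agent.TW.Cocycle.DualMat95
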