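/-
Program TW (S56), WP1 (cocycle dictionary), file 2 (helper95): the adjoint representation
`ad⁰ ρ` on trace-zero `2 × 2` matrices as an object of `Rep F G` (`F` any commutative ring over
which `k` is an algebra: `F = ZMod p` for the Selmer formalism, `F = k` for `k`-linear counts), the
cohomology class of a lift of `ρ` to the dual numbers, and its basic properties:

* `ad0 F ρ : Rep F G`              : trace-zero matrices, `g • X = ρ g * X * ρ g⁻¹`;
* `IsLiftOf ρ r`                   : `r : G →* M₂(k[ε])` has residual part `ρ` and `det r = det ρ`;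
* `liftCocycle`, `liftClass`       : the cocycle `g ↦ r₁(g) ρ(g)⁻¹` and its class in `H¹(G, ad⁰ ρ)`;
* `liftClassRes f`                 : the same for `r : H →* M₂(k[ε])` lifting `ρ ∘ f`, `f : H →* G`,
                                     with values in `H¹(H, Rep.res f (ad⁰ ρ))`;
* `map_liftClass`                  : restriction along `f` of the class of `r` is the class of `r ∘ f`;
* `liftClass_eq_iff`               : (Schur) equal classes iff conjugate by a unit.
Mathlib only.
-/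
import Mathlib
import Fermat.Agent.TW.Cocycle.DualMat95

set_option autoImplicit false

namespace Fermat.Agent.TW.Cocycle.AdRep95

open Matrix CategoryTheory groupCohomology
open Fermat.Agent.TW.Cocycle.DualMat95

local notation "M₂" => Matrix (Fin 2) (Fin 2)

variable {k : Type} [Field k]

/-- Trace-zero `2 × 2` matrices. -/
def sl2 (k : Type) [Field k] : Submodule k (M₂ k) :=
  LinearMap.ker (Matrix.traceLinearMap (Fin 2) k k)

theorem mem_sl2 {X : M₂ k} : X ∈ sl2 k ↔ X.trace = 0 := by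
  rw [sl2, LinearMap.mem_ker, Matrix.traceLinearMap_apply]

/-- `X ↦ P * X * Q` as a `k`-linear map. -/
def conjLin (P Q : M₂ k) : M₂ k →ₗ[k] M₂ k where
  toFun X := P * X * Q
  map_add' X Y := by rw [mul_add, add_mul]
  map_smul' c X := by rw [RingHom.id_apply, mul_smul_comm, smul_mul_assoc]

@[simp] theorem conjLin_apply (P Q X : M₂ k) : conjLin P Q X = P * X * Q := rfl

theorem conjLin_mem_sl2 {P Q : M₂ k} (h : Q * P = 1) {X : M₂ k} (hX : X ∈ sl2 k) :
    conjLin P Q X ∈ sl2 k := by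
  rw [mem_sl2] at hX ⊢
  rw [conjLin_apply, Matrix.trace_mul_cycle, h, one_mul, hX]

section Group

variable {G : Type} [Group G]

theorem hom_inv_mul (ρ : G →* M₂ k) (g : G) : ρ g⁻¹ * ρ g = 1 := by
  rw [← map_mul, inv_mul_cancel, map_one]

theorem hom_mul_inv (ρ : G →* M₂ k) (g : G) : ρ g * ρ g⁻¹ = 1 := by
  rw [← map_mul, mul_inv_cancel, map_one]

/-- The adjoint action of `G` on trace-zero matrices, `k`-linearly. -/
def ad0Lin (ρ : G →* M₂ k) (g : G) : sl2 k →ₗ[k] sl2 k :=
  (conjLin (ρ g) (ρ g⁻¹)).restrict fun _ hX => conjLin_mem_sl2 (hom_inv_mul ρ g) hX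

@[simp] theorem ad0Lin_coe (ρ : G →* M₂ k) (g : G) (X : sl2 k) :
    ((ad0Lin ρ g X : sl2 k) : M₂ k) = ρ g * (X : M₂ k) * ρ g⁻¹ := rfl

variable (F : Type) [CommRing F] [Algebra F k]

/-- The adjoint representation on trace-zero matrices, over any base ring `F` of `k`. -/
def ad0Repn (ρ : G →* M₂ k) : Representation F G (sl2 k) where
  toFun g := (ad0Lin ρ g).restrictScalars F
  map_one' := by
    refine LinearMap.ext fun X => Subtype.ext ?_
    simp
  map_mul' g h := by
    refine LinearMap.ext fun X => Subtype.ext ?_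
    simp only [LinearMap.coe_restrictScalars, ad0Lin_coe, Module.End.mul_apply, map_mul,
      _root_.mul_inv_rev, mul_assoc]

@[simp] theorem ad0Repn_coe (ρ : G →* M₂ k) (g : G) (X : sl2 k) :
    ((ad0Repn F ρ g X : sl2 k) : M₂ k) = ρ g * (X : M₂ k) * ρ g⁻¹ := rfl

/-- `ad⁰ ρ` as an object of `Rep F G`. -/
noncomputable abbrev ad0 (ρ : G →* M₂ k) : Rep F G := Rep.of (ad0Repn F ρ)

theorem ad0_ρ_coe (ρ : G →* M₂ k) (g : G) (X : sl2 k) :
    (((ad0 F ρ).ρ g X : sl2 k) : M₂ k) = ρ g * (X : M₂ k) * ρ g⁻¹ := rfl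

end Group

section Lift

variable {G H : Type} [Group G] [Group H]

/-- `r : G →* M₂(k[ε])` lifts `ρ` and has the same (constant) determinant. -/
structure IsLiftOf (ρ : G →* M₂ k) (r : G →* M₂ (DualNumber k)) : Prop where
  resid_eq : resid r = ρ
  det_eq : ∀ g, (r g).det = TrivSqZeroExt.inl (ρ g).det

variable {ρ : G →* M₂ k} {r r' : G →* M₂ (DualNumber k)}

theorem IsLiftOf.fstM_apply (h : IsLiftOf ρ r) (g : G) : fstM (r g) = ρ g := by
  rw [← h.resid_eq]; rfl

theorem IsLiftOf.trace_cocyc (h : IsLiftOf ρ r) (g : G) : (cocyc r g).trace = 0 := by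
  rw [← det_eq_inl_iff, h.det_eq g, h.resid_eq]

theorem IsLiftOf.comp (h : IsLiftOf ρ r) (f : H →* G) : IsLiftOf (ρ.comp f) (r.comp f) where
  resid_eq := by rw [← h.resid_eq]; rfl
  det_eq a := h.det_eq (f a)

theorem cocyc_comp (r : G →* M₂ (DualNumber k)) (f : H →* G) (a : H) :
    cocyc (r.comp f) a = cocyc r (f a) := by
  simp only [cocyc, resid_apply, MonoidHom.comp_apply, map_inv]

/-- A lift is determined by its residual part and its cocycle. -/
theorem eq_of_cocyc_eq (hres : resid r = resid r') (h : ∀ g, cocyc r g = cocyc r' g) : r = r' := by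
  refine MonoidHom.ext fun g => ?_
  rw [eq_ofParts_cocyc r g, eq_ofParts_cocyc r' g, hres, h g]

/-- The cocycle of a lift, with values in trace-zero matrices. -/
noncomputable def cocycFun (h : IsLiftOf ρ r) (g : G) : sl2 k :=
  ⟨cocyc r g, mem_sl2.2 (h.trace_cocyc g)⟩

@[simp] theorem cocycFun_coe (h : IsLiftOf ρ r) (g : G) :
    ((cocycFun h g : sl2 k) : M₂ k) = cocyc r g := rfl

variable (F : Type) [CommRing F] [Algebra F k]

/-- The cocycle of a lift `rv : H →* M₂(k[ε])` of `ρ ∘ f` in `Z¹(H, Res_f ad⁰ ρ)`. -/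
noncomputable def liftCocycleRes (f : H →* G) (ρ : G →* M₂ k) {rv : H →* M₂ (DualNumber k)}
    (hv : IsLiftOf (ρ.comp f) rv) : cocycles₁ (Rep.res f (ad0 F ρ)) :=
  ⟨fun a => cocycFun hv a, (mem_cocycles₁_iff (A := Rep.res f (ad0 F ρ)) _).2 fun a b => by
    apply Subtype.ext
    have h1 : resid rv a = ρ (f a) := by rw [hv.resid_eq]; rfl
    have h2 : resid rv a⁻¹ = ρ (f a)⁻¹ := by rw [hv.resid_eq]; simp
    show cocyc rv (a * b) = ρ (f a) * cocyc rv b * ρ (f a)⁻¹ + cocyc rv a
    rw [cocyc_mul, h1, h2]⟩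

@[simp] theorem liftCocycleRes_apply (f : H →* G) (ρ : G →* M₂ k)
    {rv : H →* M₂ (DualNumber k)} (hv : IsLiftOf (ρ.comp f) rv) (a : H) :
    liftCocycleRes F f ρ hv a = cocycFun hv a := rfl

/-- The class of a lift `rv` of `ρ ∘ f` in `H¹(H, Res_f ad⁰ ρ)`. -/
noncomputable def liftClassRes (f : H →* G) (ρ : G →* M₂ k) {rv : H →* M₂ (DualNumber k)}
    (hv : IsLiftOf (ρ.comp f) rv) : H1 (Rep.res f (ad0 F ρ)) :=
  (H1π (Rep.res f (ad0 F ρ))).hom (liftCocycleRes F f ρ hv)

/-- The cocycle of a lift of `ρ` in `Z¹(G, ad⁰ ρ)`. -/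
noncomputable def liftCocycle (h : IsLiftOf ρ r) : cocycles₁ (ad0 F ρ) :=
  ⟨fun g => cocycFun h g, (mem_cocycles₁_iff (A := ad0 F ρ) _).2 fun a b => by
    apply Subtype.ext
    have h1 : resid r a = ρ a := by rw [h.resid_eq]
    have h2 : resid r a⁻¹ = ρ a⁻¹ := by rw [h.resid_eq]
    show cocyc r (a * b) = ρ a * cocyc r b * ρ a⁻¹ + cocyc r a
    rw [cocyc_mul, h1, h2]⟩

@[simp] theorem liftCocycle_apply (h : IsLiftOf ρ r) (g : G) :
    liftCocycle F h g = cocycFun h g := rfl

/-- The class of a lift of `ρ` in `H¹(G, ad⁰ ρ)`. -/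
noncomputable def liftClass (h : IsLiftOf ρ r) : H1 (ad0 F ρ) :=
  (H1π (ad0 F ρ)).hom (liftCocycle F h)

/-- Restriction along `f : H →* G` of the class of `r` is the class of `r ∘ f`. -/
theorem map_liftClass (f : H →* G) (h : IsLiftOf ρ r) :
    (groupCohomology.map f (𝟙 (Rep.res f (ad0 F ρ))) 1).hom (liftClass F h) =
      liftClassRes F f ρ (h.comp f) := by
  rw [liftClass, liftClassRes]
  have := H1π_comp_map_apply (A := ad0 F ρ) (B := Rep.res f (ad0 F ρ)) f
    (𝟙 (Rep.res f (ad0 F ρ))) (liftCocycle F h)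
  refine this.trans ?_
  congr 1
  apply cocycles₁_ext
  intro a
  apply Subtype.ext
  show cocyc r (f a) = cocyc (r.comp f) a
  rw [cocyc_comp]

/-- Two cocycles with values in `Res_f ad⁰ ρ` have the same class iff they differ by the coboundary
of a trace-zero matrix. -/
theorem H1π_res_eq_iff (f : H →* G) (ρ : G →* M₂ k) (x y : cocycles₁ (Rep.res f (ad0 F ρ))) :
    (H1π (Rep.res f (ad0 F ρ))).hom x = (H1π (Rep.res f (ad0 F ρ))).hom y ↔
      ∃ X : sl2 k, ∀ a : H, ((x a : sl2 k) : M₂ k) - ((y a : sl2 k) : M₂ k) =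
        ρ (f a) * (X : M₂ k) * ρ (f a)⁻¹ - (X : M₂ k) := by
  rw [H1π_eq_iff]
  constructor
  · rintro ⟨X, hX⟩
    refine ⟨X, fun a => ?_⟩
    have h1 := congrFun hX a
    have h2 := congrArg (Subtype.val : sl2 k → M₂ k) h1
    exact h2.symm
  · rintro ⟨X, hX⟩
    refine ⟨X, funext fun a => Subtype.ext ?_⟩
    exact (hX a).symm

/-- Equality of local classes, in terms of the matrix cocycles. -/
theorem liftClassRes_eq_iff (f : H →* G) (ρ : G →* M₂ k) {rv rv' : H →* M₂ (DualNumber k)}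
    (hv : IsLiftOf (ρ.comp f) rv) (hv' : IsLiftOf (ρ.comp f) rv') :
    liftClassRes F f ρ hv = liftClassRes F f ρ hv' ↔
      ∃ X : M₂ k, X.trace = 0 ∧ ∀ a : H, cocyc rv a - cocyc rv' a =
        ρ (f a) * X * ρ (f a)⁻¹ - X := by
  rw [liftClassRes, liftClassRes, H1π_res_eq_iff]
  constructor
  · rintro ⟨X, hX⟩
    exact ⟨X, mem_sl2.1 X.2, hX⟩
  · rintro ⟨X, hX0, hX⟩
    exact ⟨⟨X, mem_sl2.2 hX0⟩, hX⟩

/-- Equality of global classes, in terms of the matrix cocycles. -/
theorem liftClass_eq_iff (h : IsLiftOf ρ r) (h' : IsLiftOf ρ r') :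
    liftClass F h = liftClass F h' ↔
      ∃ X : M₂ k, X.trace = 0 ∧ ∀ g : G, cocyc r g - cocyc r' g = ρ g * X * ρ g⁻¹ - X := by
  have key := H1π_res_eq_iff F (MonoidHom.id G) ρ (liftCocycle F h) (liftCocycle F h')
  rw [liftClass, liftClass]
  refine key.trans ?_
  constructor
  · rintro ⟨X, hX⟩
    exact ⟨X, mem_sl2.1 X.2, hX⟩
  · rintro ⟨X, hX0, hX⟩
    exact ⟨⟨X, mem_sl2.2 hX0⟩, hX⟩

/-- Lifts of `ρ` with the same class are conjugate by a unit reducing to `1`. -/
theorem exists_conj_of_liftClass_eq (h : IsLiftOf ρ r) (h' : IsLiftOf ρ r')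
    (heq : liftClass F h = liftClass F h') :
    ∃ u : (M₂ (DualNumber k))ˣ, fstM (u : M₂ (DualNumber k)) = 1 ∧
      ∀ g, (u : M₂ (DualNumber k)) * r g = r' g * (u : M₂ (DualNumber k)) := by
  obtain ⟨X, -, hX⟩ := (liftClass_eq_iff F h h').1 heq
  have hres : resid r = resid r' := by rw [h.resid_eq, h'.resid_eq]
  have hX' : ∀ g, cocyc r g - cocyc r' g = resid r g * X * resid r g⁻¹ - X := by
    intro g; rw [h.resid_eq]; exact hX g
  have hunit : IsUnit (ofParts (1 : M₂ k) X) :=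
    isUnit_of_isUnit_fstM (by rw [fstM_ofParts]; exact isUnit_one)
  obtain ⟨u, hu⟩ := hunit
  refine ⟨u, by rw [hu, fstM_ofParts], fun g => ?_⟩
  rw [hu]
  exact conj_of_coboundary hres X hX' g

/-- (Schur) Conjugate lifts of `ρ` have the same class, if the commutant of `ρ` consists of scalars
and `2` is invertible. -/
theorem liftClass_eq_of_conj (h2 : (2 : k) ≠ 0)
    (schur : ∀ x : M₂ k, (∀ g, x * ρ g = ρ g * x) → ∃ c : k, x = c • (1 : M₂ k))
    (h : IsLiftOf ρ r) (h' : IsLiftOf ρ r') (u : (M₂ (DualNumber k))ˣ)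
    (hu : ∀ g, (u : M₂ (DualNumber k)) * r g = r' g * (u : M₂ (DualNumber k))) :
    liftClass F h = liftClass F h' := by
  have hres : resid r = resid r' := by rw [h.resid_eq, h'.resid_eq]
  -- the residual part of `u` commutes with `ρ`, hence is a scalar
  have hcomm : ∀ g, fstM (u : M₂ (DualNumber k)) * ρ g = ρ g * fstM (u : M₂ (DualNumber k)) := by
    intro g
    have := congrArg fstM (hu g)
    rwa [map_mul, map_mul, h.fstM_apply, h'.fstM_apply] at this
  obtain ⟨lam, hlam⟩ := schur _ hcomm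
  have hlam0 : lam ≠ 0 := by
    rintro rfl
    rw [zero_smul] at hlam
    have h1 : IsUnit (fstM (u : M₂ (DualNumber k))) := (u.isUnit).map fstM
    rw [hlam] at h1
    exact not_isUnit_zero h1
  have hcob := coboundary_of_conj hres (u : M₂ (DualNumber k)) lam hlam0 hlam hu
  generalize lam⁻¹ • sndM (u : M₂ (DualNumber k)) = Y at hcob
  -- remove the scalar part of `Y`
  refine (liftClass_eq_iff F h h').2 ⟨Y - (Y.trace / 2) • (1 : M₂ k), ?_, fun g => ?_⟩
  · rw [Matrix.trace_sub, Matrix.trace_smul, Matrix.trace_one, Fintype.card_fin, smul_eq_mul]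
    have : ((2 : ℕ) : k) = 2 := by norm_num
    rw [this, div_mul_cancel₀ _ h2, sub_self]
  · have h3 := hcob g
    rw [h.resid_eq] at h3
    rw [h3, mul_sub, sub_mul, mul_smul_comm, mul_one, smul_mul_assoc, hom_mul_inv]
    abel

end Lift

section Size

/-- The trace-zero matrices form a `3`-dimensional space. -/
theorem finrank_sl2 : Module.finrank k (sl2 k) = 3 := by
  have hsurj : LinearMap.range (Matrix.traceLinearMap (Fin 2) k k) = ⊤ := by
    rw [LinearMap.range_eq_top]
    intro c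
    refine ⟨Matrix.of ![![c, 0], ![0, 0]], ?_⟩
    simp [Matrix.trace_fin_two]
  have h := LinearMap.finrank_range_add_finrank_ker (Matrix.traceLinearMap (Fin 2) k k)
  rw [hsurj, finrank_top, Module.finrank_self, Module.finrank_matrix, Fintype.card_fin,
    Module.finrank_self] at h
  change 1 + Module.finrank k (sl2 k) = 2 * 2 * 1 at h
  omega

instance : Module.Finite k (sl2 k) := Module.Finite.of_injective (sl2 k).subtype
  (Submodule.injective_subtype _)

instance finite_sl2 (F : Type) [CommRing F] [Algebra F k] [Module.Finite F k] :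
    Module.Finite F (sl2 k) := Module.Finite.trans k (sl2 k)

theorem card_sl2 [Finite k] : Nat.card (sl2 k) = Nat.card k ^ 3 := by
  rw [Module.natCard_eq_pow_finrank (K := k) (V := sl2 k), finrank_sl2]

variable {G : Type} [Group G]

/-- `H⁰(G, ad⁰ ρ) = 0` when the commutant of `ρ` is reduced to scalars and `2 ≠ 0`. -/
theorem invariants_ad0_eq_bot (F : Type) [CommRing F] [Algebra F k] (ρ : G →* M₂ k)
    (h2 : (2 : k) ≠ 0)
    (schur : ∀ x : M₂ k, (∀ g, x * ρ g = ρ g * x) → ∃ c : k, x = c • (1 : M₂ k)) :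
    (ad0 F ρ).ρ.invariants = ⊥ := by
  rw [eq_bot_iff]
  intro X hX
  rw [Submodule.mem_bot]
  have hX' : ∀ g, (X : M₂ k) * ρ g = ρ g * (X : M₂ k) := by
    intro g
    have h1 := congrArg (Subtype.val : sl2 k → M₂ k) (hX g)
    have h2 : ρ g * (X : M₂ k) * ρ g⁻¹ = (X : M₂ k) := h1
    calc (X : M₂ k) * ρ g = ρ g * (X : M₂ k) * ρ g⁻¹ * ρ g := by rw [h2]
      _ = ρ g * (X : M₂ k) := by rw [mul_assoc, hom_inv_mul, mul_one]
  obtain ⟨c, hc⟩ := schur _ hX'
  have htr : (X : M₂ k).trace = 0 := mem_sl2.1 X.2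
  rw [hc, Matrix.trace_smul, Matrix.trace_one, Fintype.card_fin, smul_eq_mul] at htr
  have h2' : ((2 : ℕ) : k) = 2 := by norm_num
  rw [h2'] at htr
  have hc0 : c = 0 := (mul_eq_zero.1 htr).resolve_right h2
  apply Subtype.ext
  rw [hc, hc0, zero_smul]
  rfl

end Size

end Fermat.Agent.TW.Cocycle.AdRep95
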