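/-
Program TW (S56), WP1 (cocycle dictionary), file 3 (helper95): from `GaloisRepAdic (DualNumber k)`
to matrices.

* `mem_maximalIdeal_iff`, `maximalIdeal_sq` : the maximal ideal of `k[ε]` is `{fst = 0}`, of square `0`;
* `exists_basis_of_isEquiv` / `isEquiv_of_basis` : `ρ ≃ ofMatrix r` iff `r` is the matrix of `ρ` in some
  basis;
* `exists_matrix_lift` : a lift `ρ` of `ρbar` to `k[ε]` (`ResIso`-shape hypothesis) is equivalent to
  `ofMatrix r` with `fstM (r σ) = [ρbar σ]_bbar`, for any prescribed basis `bbar` of `ρbar.V`;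
* `det_eq_inl_of_detIsCyclotomic` : `DetIsCyclotomic p` forces `det (r σ) = inl (det (fstM (r σ)))` in
  characteristic `p`, so such an `r` satisfies `AdRep95.IsLiftOf`;
* `eq_one_of_mem_fixingSubgroup`, `exists_unramified_level` : `r` is trivial on the absolute Galois
  group of a finite extension, which can be taken unramified outside `S` if `r` is.
-/
import Mathlib
import Fermat.Prelude.Def_GroupCohomology_ContinuousUnramified
import Fermat.Prelude.Def_GaloisRep_LocalConditions
import Fermat.Agent.S53.MatrixRes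
import Fermat.Agent.TW.Cocycle.AdRep95

set_option autoImplicit false

namespace Fermat.Agent.TW.Cocycle.MatrixLift95

open Fermat.Agent.S53 Fermat.Agent.TW.Cocycle.DualMat95 Fermat.Agent.TW.Cocycle.AdRep95
open IsLocalRing TrivSqZeroExt

local notation "Qbar" => AlgebraicClosure ℚ

variable {k : Type} [Field k]

/-! ### The dual numbers as a local ring -/

theorem mem_maximalIdeal_iff (x : DualNumber k) :
    x ∈ maximalIdeal (DualNumber k) ↔ x.fst = 0 := by
  rw [DualNumber.maximalIdeal_eq_span_singleton_eps, Ideal.mem_span_singleton,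
    DualNumber.fst_eq_zero_iff_eps_dvd]

theorem maximalIdeal_sq : maximalIdeal (DualNumber k) ^ 2 = ⊥ := by
  rw [DualNumber.maximalIdeal_eq_span_singleton_eps, Ideal.span_singleton_pow, sq,
    DualNumber.eps_mul_eps, Ideal.span_singleton_eq_bot]

/-- The embedding `k → k[ε] → k[ε]/(ε)` (an isomorphism). -/
noncomputable def resEmb (k : Type) [Field k] : k →+* ResidueField (DualNumber k) :=
  (residue (DualNumber k)).comp (algebraMap k (DualNumber k))

theorem resEmb_injective : Function.Injective (resEmb k) := (resEmb k).injective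

theorem residue_eq_resEmb_fst (x : DualNumber k) : residue (DualNumber k) x = resEmb k x.fst := by
  rw [resEmb, RingHom.comp_apply, ← sub_eq_zero, ← map_sub, residue_eq_zero_iff,
    mem_maximalIdeal_iff, TrivSqZeroExt.fst_sub, TrivSqZeroExt.algebraMap_eq_inl,
    TrivSqZeroExt.fst_inl, sub_self]

/-- A matrix over `k[ε]` reducing to the image of `X` has residual part `X`. -/
theorem fstM_eq_of_map_residue_eq {R : M2 (DualNumber k)} {X : M2 k}
    (h : R.map (residue (DualNumber k)) = X.map (resEmb k)) : fstM R = X := by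
  ext i j
  have h1 := congrFun (congrFun h i) j
  rw [Matrix.map_apply, Matrix.map_apply, residue_eq_resEmb_fst] at h1
  exact resEmb_injective h1

/-! ### Bases and matrix models -/

section Basis

variable {A : Type} [CommRing A] [IsLocalRing A]

/-- If `ρ ≃ ofMatrix r`, then `r` is the matrix of `ρ` in a suitable basis. -/
theorem exists_basis_of_isEquiv {ρ : GaloisRepAdic A} {r : GQ →* M2 A} {hr : MatCont r}
    (h : ρ.IsEquiv (ofMatrix r hr)) :
    ∃ b : Module.Basis (Fin 2) A ρ.V, ∀ σ, LinearMap.toMatrix b b (ρ.ρ σ) = r σ := by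
  obtain ⟨e⟩ := h
  let e' : ρ.V ≃ₗ[A] (Fin 2 → A) := e.toLinearEquiv
  refine ⟨(Pi.basisFun A (Fin 2)).map e'.symm, fun σ => ?_⟩
  ext i j
  rw [LinearMap.toMatrix_apply, Module.Basis.map_apply, Module.Basis.map_repr,
    LinearEquiv.trans_apply, LinearEquiv.symm_symm]
  have h1 : e' (ρ.ρ σ (e'.symm (Pi.basisFun A (Fin 2) j))) =
      (r σ).mulVec (Pi.basisFun A (Fin 2) j) := by
    have h2 := e.map_apply σ (e'.symm (Pi.basisFun A (Fin 2) j))
    have h3 : e.toLinearEquiv (e'.symm (Pi.basisFun A (Fin 2) j)) = Pi.basisFun A (Fin 2) j :=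
      e'.apply_symm_apply _
    exact h2.trans (congrArg (fun v : Fin 2 → A => (r σ).mulVec v) h3)
  rw [h1, Pi.basisFun_repr, Pi.basisFun_apply, Matrix.mulVec_single_one]
  rfl

/-- If `r` is the matrix of `ρ` in some basis then `ρ ≃ ofMatrix r`. -/
theorem isEquiv_of_basis {ρ : GaloisRepAdic A} {r : GQ →* M2 A} (hr : MatCont r)
    (b : Module.Basis (Fin 2) A ρ.V) (h : ∀ σ, LinearMap.toMatrix b b (ρ.ρ σ) = r σ) :
    ρ.IsEquiv (ofMatrix r hr) := by
  have h1 : MatrixModel.matrixOf ρ b = r := MonoidHom.ext fun σ => h σ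
  subst h1
  exact MatrixModel.isEquiv_ofMatrix_matrixOf ρ b

theorem matCont_of_basis {ρ : GaloisRepAdic A} {r : GQ →* M2 A}
    (b : Module.Basis (Fin 2) A ρ.V) (h : ∀ σ, LinearMap.toMatrix b b (ρ.ρ σ) = r σ) :
    MatCont r := by
  have h1 : MatrixModel.matrixOf ρ b = r := MonoidHom.ext fun σ => h σ
  subst h1
  exact MatrixModel.matCont_matrixOf ρ b

end Basis

/-! ### Lifts of `ρbar` to the dual numbers in matrix form -/

section Lift

/-- A lift `ρ` of `ρbar` to `k[ε]` is equivalent to a matrix representation whose residual part is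
the matrix of `ρbar` in the prescribed basis `bbar`. -/
theorem exists_matrix_lift (ρbar : ResidualGaloisRep k) (bbar : Module.Basis (Fin 2) k ρbar.V)
    (ρ : GaloisRepAdic (DualNumber k))
    (hres : ρ.residual.IsEquiv (ρbar.baseChangeAlong (resEmb k))) :
    ∃ (r : GQ →* M2 (DualNumber k)) (hr : MatCont r),
      (∀ σ, fstM (r σ) = matrixOfBasisRes ρbar bbar σ) ∧ ρ.IsEquiv (ofMatrix r hr) := by
  obtain ⟨r₀, hr₀, h₀⟩ := MatrixModel.exists_isEquiv_ofMatrix ρ
  have hrbar := matrixOfBasisRes_factors ρbar bbar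
  have h1 : (ofMatrixRes (mapMat (residue (DualNumber k)) r₀)
      (factors_of_matCont_residue hr₀)).IsEquiv
      (ofMatrixRes (mapMat (resEmb k) (matrixOfBasisRes ρbar bbar))
        (factors_mapMat _ hrbar)) := by
    refine resIsEquiv_trans (resIsEquiv_symm (ofMatrix_residual r₀ hr₀)) ?_
    refine resIsEquiv_trans (resIsEquiv_symm (adicIsEquiv_residual h₀)) ?_
    refine resIsEquiv_trans hres ?_
    exact res_baseChangeAlong_isEquiv_ofMatrixRes (resEmb k) ρbar bbar _ _ (fun σ => rfl)
  obtain ⟨gbar, hgbar⟩ := (ofMatrixRes_isEquiv_iff _ _).mp h1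
  obtain ⟨g, hg⟩ := exists_unit_map_residue_eq gbar
  refine ⟨conjHom g r₀, matCont_conjHom g hr₀, fun σ => ?_,
    adicIsEquiv_trans h₀ (ofMatrix_isEquiv_conjHom g hr₀)⟩
  apply fstM_eq_of_map_residue_eq
  have hginv : (((g⁻¹ : (M2 (DualNumber k))ˣ) : M2 (DualNumber k))).map
      (residue (DualNumber k)) =
      ((gbar⁻¹ : (M2 (ResidueField (DualNumber k)))ˣ) : M2 (ResidueField (DualNumber k))) := by
    have h2 : (g : M2 (DualNumber k)).map (residue (DualNumber k)) *
        (((g⁻¹ : (M2 (DualNumber k))ˣ) : M2 (DualNumber k))).map (residue (DualNumber k)) = 1 := by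
      rw [← Matrix.map_mul, Units.mul_inv, Matrix.map_one _ (map_zero _) (map_one _)]
    rw [hg] at h2
    exact (Units.inv_eq_of_mul_eq_one_right h2).symm
  rw [conjHom_apply, Matrix.map_mul, Matrix.map_mul, hg, hginv]
  have h3 := hgbar σ
  rw [MatrixModel.mapMat_apply', MatrixModel.mapMat_apply'] at h3
  rw [h3, mul_assoc, Units.mul_inv, mul_one]

variable (p : ℕ) [Fact p.Prime]

/-- Every automorphism of `ℚ̄` raises the `p`-th roots of unity to the power `cycloExp p σ`. -/
theorem apply_eq_pow_cycloExp (σ : GQ) {μ : Qbar} (hμ : μ ^ p = 1) :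
    σ μ = μ ^ ExtCitation.cycloExp p σ := by
  have : NeZero p := ⟨(Fact.out : p.Prime).ne_zero⟩
  have hu : IsUnit μ := IsUnit.of_pow_eq_one hμ (NeZero.ne p)
  obtain ⟨u, rfl⟩ := hu
  have hmem : u ∈ rootsOfUnity p Qbar := by
    rw [mem_rootsOfUnity]
    exact Units.ext (by simpa using hμ)
  exact modularCyclotomicCharacter.spec Qbar (ExtCitation.card_rootsOfUnity_eq_self p)
    (σ : Qbar ≃+* Qbar) hmem

/-- In characteristic `p`, `DetIsCyclotomic p` says that the determinant is the constant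
`cycloExp p σ`. -/
theorem det_eq_natCast_of_detIsCyclotomic [CharP k p] {ρ : GaloisRepAdic (DualNumber k)}
    (hdet : ρ.DetIsCyclotomic p) (σ : GQ) :
    LinearMap.det (ρ.ρ σ) = ((ExtCitation.cycloExp p σ : ℕ) : DualNumber k) := by
  have h := hdet.2 1 σ (ExtCitation.cycloExp p σ) fun μ hμ => by
    rw [pow_one] at hμ
    exact apply_eq_pow_cycloExp p σ hμ
  have hp0 : ((p ^ 1 : ℕ) : DualNumber k) = 0 := by
    rw [pow_one]
    apply TrivSqZeroExt.ext
    · rw [TrivSqZeroExt.fst_natCast, TrivSqZeroExt.fst_zero]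
      exact CharP.cast_eq_zero k p
    · rw [TrivSqZeroExt.snd_natCast, TrivSqZeroExt.snd_zero]
  rw [hp0, Ideal.span_singleton_eq_bot.mpr rfl, Ideal.mem_bot, sub_eq_zero] at h
  exact h

/-- `DetIsCyclotomic p` in matrix form: the determinant of the lift is the (constant) determinant
of its residual part. -/
theorem det_eq_inl_of_detIsCyclotomic [CharP k p] {ρ : GaloisRepAdic (DualNumber k)}
    (hdet : ρ.DetIsCyclotomic p) {r : GQ →* M2 (DualNumber k)}
    (b : Module.Basis (Fin 2) (DualNumber k) ρ.V)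
    (hb : ∀ σ, LinearMap.toMatrix b b (ρ.ρ σ) = r σ) (σ : GQ) :
    (r σ).det = TrivSqZeroExt.inl (fstM (r σ)).det := by
  have h1 : (r σ).det = ((ExtCitation.cycloExp p σ : ℕ) : DualNumber k) := by
    rw [← hb σ, LinearMap.det_toMatrix b, det_eq_natCast_of_detIsCyclotomic p hdet σ]
  have h2 : (fstM (r σ)).det = ((ExtCitation.cycloExp p σ : ℕ) : k) := by
    have : (fstM (r σ)).det = (r σ).det.fst := by
      have := (RingHom.map_det ((TrivSqZeroExt.fstHom k k k : DualNumber k →ₐ[k] k) :
        DualNumber k →+* k) (r σ)).symm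
      exact this
    rw [this, h1, TrivSqZeroExt.fst_natCast]
  rw [h1, h2]
  apply TrivSqZeroExt.ext
  · rw [TrivSqZeroExt.fst_natCast, TrivSqZeroExt.fst_inl]
  · rw [TrivSqZeroExt.snd_natCast, TrivSqZeroExt.snd_inl]

/-- The matrix lift of a deformation with cyclotomic determinant satisfies `IsLiftOf`. -/
theorem exists_isLiftOf [CharP k p] (ρbar : ResidualGaloisRep k)
    (bbar : Module.Basis (Fin 2) k ρbar.V) (ρ : GaloisRepAdic (DualNumber k))
    (hres : ρ.residual.IsEquiv (ρbar.baseChangeAlong (resEmb k)))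
    (hdet : ρ.DetIsCyclotomic p) :
    ∃ (r : GQ →* M2 (DualNumber k)) (b : Module.Basis (Fin 2) (DualNumber k) ρ.V),
      (∀ σ, LinearMap.toMatrix b b (ρ.ρ σ) = r σ) ∧
        IsLiftOf (matrixOfBasisRes ρbar bbar) r := by
  obtain ⟨r, hr, hfst, hequiv⟩ := exists_matrix_lift ρbar bbar ρ hres
  obtain ⟨b, hb⟩ := exists_basis_of_isEquiv hequiv
  refine ⟨r, b, hb, ⟨MonoidHom.ext fun σ => hfst σ, fun σ => ?_⟩⟩
  rw [det_eq_inl_of_detIsCyclotomic p hdet b hb σ, hfst σ]

end Lift

/-! ### Levels -/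

section Level

local instance isAlgClosureQbar95 : IsAlgClosure ℚ Qbar :=
  ⟨inferInstance, AlgebraicClosure.isAlgebraic ℚ⟩
local instance normalQbar95 : Normal ℚ Qbar := IsAlgClosure.normal ℚ Qbar
local instance isGaloisQbar95 : IsGalois ℚ Qbar := IsAlgClosure.isGalois ℚ Qbar

/-- A continuous matrix representation over `k[ε]` is trivial on the absolute Galois group of a
finite extension of `ℚ`. -/
theorem exists_finite_forall_eq_one {r : GQ →* M2 (DualNumber k)} (hr : MatCont r) :
    ∃ L : IntermediateField ℚ Qbar, FiniteDimensional ℚ L ∧ ∀ σ ∈ L.fixingSubgroup, r σ = 1 := by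
  obtain ⟨L, hL, h⟩ := hr 2
  refine ⟨L, hL, fun σ hσ => ?_⟩
  have h1 := h σ fun x hx => (IntermediateField.mem_fixingSubgroup_iff L σ).1 hσ x hx
  rw [← sub_eq_zero]
  refine Matrix.ext fun i j => ?_
  have h2 := h1 i j
  rw [maximalIdeal_sq, Ideal.mem_bot] at h2
  rw [h2]; rfl

/-- If moreover `r` is trivial on the inertia groups at the primes outside `S`, the finite
extension can be taken unramified outside `S`. -/
theorem exists_isUnramifiedOutside_forall_eq_one (S : Finset Nat.Primes)
    {r : GQ →* M2 (DualNumber k)} (hr : MatCont r)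
    (hur : ∀ q : Nat.Primes, q ∉ S → ∀ P : ValuationSubring Qbar, P.LiesOverPrime (q : ℕ) →
      ∀ σ ∈ P.inertiaSubgroupIn ℚ, r σ = 1) :
    ∃ F : IntermediateField ℚ Qbar, F.IsUnramifiedOutside S ∧
      ∀ σ ∈ F.fixingSubgroup, r σ = 1 := by
  obtain ⟨L, hLfin, hL⟩ := exists_finite_forall_eq_one hr
  let N : Subgroup GQ := MonoidHom.ker r
  have hLN : L.fixingSubgroup ≤ N := fun s hs => hL s hs
  have hNopen : IsOpen (N : Set GQ) := Subgroup.isOpen_mono hLN L.fixingSubgroup_isOpen
  have hNclosed : IsClosed (N : Set GQ) := Subgroup.isClosed_of_isOpen N hNopen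
  let Nc : ClosedSubgroup GQ := ⟨N, hNclosed⟩
  have hfix : (IntermediateField.fixedField N).fixingSubgroup = N :=
    InfiniteGalois.fixingSubgroup_fixedField Nc
  have hle : IntermediateField.fixedField N ≤ L := by
    have h1 := IntermediateField.fixedField_antitone hLN
    rwa [InfiniteGalois.fixedField_fixingSubgroup] at h1
  refine ⟨IntermediateField.fixedField N, ⟨?_, fun q hq P hP g hg => ?_⟩, fun σ hσ => ?_⟩
  · exact FiniteDimensional.of_injective (IntermediateField.inclusion hle).toLinearMap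
      (IntermediateField.inclusion_injective hle)
  · rw [hfix]
    exact hur q hq P hP g hg
  · rw [hfix] at hσ
    exact hσ

theorem cocyc_eq_zero_of_eq_one {G : Type} [Group G] {r : G →* M2 (DualNumber k)} {s : G}
    (hs : r s = 1) : cocyc r s = 0 := by
  rw [cocyc, hs, sndM_one, zero_mul]

theorem cocyc_mul_of_eq_one {G : Type} [Group G] {r : G →* M2 (DualNumber k)} (g : G) {s : G}
    (hs : r s = 1) : cocyc r (g * s) = cocyc r g := by
  rw [cocyc_mul, cocyc_eq_zero_of_eq_one hs, mul_zero, zero_mul, zero_add]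

open groupCohomology in
/-- The cocycle of a continuous lift unramified outside `S` is `S`-level-constant. -/
theorem isLevelConstantS₁_liftCocycle (F : Type) [CommRing F] [Algebra F k]
    (S : Finset Nat.Primes) {rbar : GQ →* M2 k} {r : GQ →* M2 (DualNumber k)}
    (h : IsLiftOf rbar r) (hr : MatCont r)
    (hur : ∀ q : Nat.Primes, q ∉ S → ∀ P : ValuationSubring Qbar, P.LiesOverPrime (q : ℕ) →
      ∀ σ ∈ P.inertiaSubgroupIn ℚ, r σ = 1) :
    IsLevelConstantS₁ S (fun g => liftCocycle F h g) := by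
  obtain ⟨L, hLS, hL⟩ := exists_isUnramifiedOutside_forall_eq_one S hr hur
  refine ⟨L, hLS, fun g s hs => ?_⟩
  apply Subtype.ext
  show cocyc r (g * s) = cocyc r g
  exact cocyc_mul_of_eq_one g (hL s hs)

open groupCohomology in
/-- The class of a continuous lift unramified outside `S` lies in `continuousH1S S (ad⁰ ρbar)`. -/
theorem liftClass_mem_continuousH1S (F : Type) [CommRing F] [Algebra F k]
    (S : Finset Nat.Primes) {rbar : GQ →* M2 k} {r : GQ →* M2 (DualNumber k)}
    (h : IsLiftOf rbar r) (hr : MatCont r)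
    (hur : ∀ q : Nat.Primes, q ∉ S → ∀ P : ValuationSubring Qbar, P.LiesOverPrime (q : ℕ) →
      ∀ σ ∈ P.inertiaSubgroupIn ℚ, r σ = 1) :
    liftClass F h ∈ continuousH1S S (AdRep95.ad0 F rbar) :=
  (mem_continuousH1S_iff S _ _).2
    ⟨liftCocycle F h, isLevelConstantS₁_liftCocycle F S h hr hur, rfl⟩

end Level

end Fermat.Agent.TW.Cocycle.MatrixLift95
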