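/-
Program TW (S56), WP1 (cocycle dictionary), file 4 (helper95): the three WP1 contracts of
`Fermat/Agent/TW/Spec/Contract52.lean`:

* `cocycleExists p ρbar     : Contract52.CocycleExists p ρbar`;
* `cocycleUnramified p ρbar : Contract52.CocycleUnramified p ρbar`;
* `cocycleInjective p ρbar  : Contract52.CocycleInjective p ρbar`;

together with the DICTIONARY used by the local packages to pass from `Defs52.IsLiftCocycle` to the
matrix model of `DualMat95`/`AdRep95`:

* `isLiftCocycle_iff_of_bases` : for bases `bbar` of `ρbar.V` and `b` of `ρ.V`, with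
  `r = matrixOf ρ b`, the matrix identity of `IsLiftCocycle` holds for all `g` iff
  `resid r = [ρbar]_bbar` and `cocyc r g = [c g]_bbar` for all `g`;
* `IsLiftCocycle.exists_basis` : the basis `bbar` of `ρbar.V` in `IsLiftCocycle` can be prescribed.
-/
import Mathlib
import Fermat.Agent.TW.Spec.Contract52
import Fermat.Agent.TW.Cocycle.MatrixLift95

set_option autoImplicit false

namespace Fermat.Agent.TW.Cocycle.Contract95

open Fermat.Agent.S53 Fermat.Agent.TW.Cocycle.DualMat95 Fermat.Agent.TW.Cocycle.AdRep95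
open Fermat.Agent.TW.Cocycle.MatrixLift95
open IsLocalRing TrivSqZeroExt CategoryTheory groupCohomology

local notation "Qbar" => AlgebraicClosure ℚ
local notation "Γ" => (AlgebraicClosure ℚ ≃ₐ[ℚ] AlgebraicClosure ℚ)

variable {k : Type} [Field k]

/-! ### Matrices over the dual numbers: `inl`/`inr` parts -/

theorem map_inl_add_map_inr (X Y : M2 k) :
    X.map (TrivSqZeroExt.inl : k → DualNumber k) + Y.map (TrivSqZeroExt.inr : k → DualNumber k) =
      ofParts X Y := by
  apply ext_parts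
  · ext i j
    simp
  · ext i j
    simp

theorem map_inl_eq_ofParts (X : M2 k) :
    X.map (TrivSqZeroExt.inl : k → DualNumber k) = ofParts X 0 := by
  apply ext_parts
  · ext i j
    simp
  · ext i j
    simp

/-- Conjugation by a constant invertible matrix. -/
theorem ofParts_conj (Q Q' X Y : M2 k) :
    ofParts Q 0 * ofParts X Y * ofParts Q' 0 = ofParts (Q * X * Q') (Q * Y * Q') := by
  rw [ofParts_mul, ofParts_mul]
  simp

/-! ### The dictionary for fixed bases -/

section Dictionary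

open Fermat.Agent.TW.Spec.Defs52 (IsLiftCocycle)

variable (ρbar : ResidualGaloisRep k) (ρ : GaloisRepAdic (DualNumber k))

/-- The matrix identity of `Defs52.IsLiftCocycle` for fixed bases. -/
def MatrixIdentity (bbar : Module.Basis (Fin 2) k ρbar.V)
    (b : Module.Basis (Fin 2) (DualNumber k) ρ.V) (c : Γ → Module.End k ρbar.V) : Prop :=
  ∀ g : Γ, LinearMap.toMatrix b b (ρ.ρ g) =
    (LinearMap.toMatrix bbar bbar (ρbar.ρ g)).map (TrivSqZeroExt.inl : k → DualNumber k) +
    (LinearMap.toMatrix bbar bbar (c g * ρbar.ρ g)).map (TrivSqZeroExt.inr : k → DualNumber k)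

theorem isLiftCocycle_iff_exists (c : Γ → Module.End k ρbar.V) :
    IsLiftCocycle ρbar ρ c ↔ ∃ bbar b, MatrixIdentity ρbar ρ bbar b c := Iff.rfl

variable {ρbar ρ}

/-- **Dictionary.** For fixed bases, the matrix identity of `IsLiftCocycle` says that the matrix
representation `r = matrixOf ρ b` has residual part `[ρbar]_bbar` and cocycle `[c]_bbar`. -/
theorem matrixIdentity_iff (bbar : Module.Basis (Fin 2) k ρbar.V)
    (b : Module.Basis (Fin 2) (DualNumber k) ρ.V) (c : Γ → Module.End k ρbar.V) :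
    MatrixIdentity ρbar ρ bbar b c ↔
      resid (MatrixModel.matrixOf ρ b) = matrixOfBasisRes ρbar bbar ∧
        ∀ g, cocyc (MatrixModel.matrixOf ρ b) g = LinearMap.toMatrix bbar bbar (c g) := by
  constructor
  · intro h
    have h' : ∀ g, MatrixModel.matrixOf ρ b g =
        ofParts (matrixOfBasisRes ρbar bbar g)
          (LinearMap.toMatrix bbar bbar (c g) * matrixOfBasisRes ρbar bbar g) := by
      intro g
      rw [MatrixModel.matrixOf_apply, h g, map_inl_add_map_inr, LinearMap.toMatrix_mul]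
      rfl
    have hres : resid (MatrixModel.matrixOf ρ b) = matrixOfBasisRes ρbar bbar := by
      refine MonoidHom.ext fun g => ?_
      rw [resid_apply, h' g, fstM_ofParts]
    refine ⟨hres, fun g => ?_⟩
    rw [cocyc, hres, h' g, sndM_ofParts, mul_assoc, hom_mul_inv, mul_one]
  · rintro ⟨hres, hc⟩ g
    rw [map_inl_add_map_inr, LinearMap.toMatrix_mul, ← hc g]
    have := eq_ofParts_cocyc (MatrixModel.matrixOf ρ b) g
    rw [hres] at this
    exact this

/-- Change of basis by an invertible matrix. -/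
theorem exists_basis_conj {A : Type} [CommRing A] [IsLocalRing A] (ρ : GaloisRepAdic A)
    (b : Module.Basis (Fin 2) A ρ.V) (u : (M2 A)ˣ) :
    ∃ b' : Module.Basis (Fin 2) A ρ.V, ∀ σ, LinearMap.toMatrix b' b' (ρ.ρ σ) =
      (u : M2 A) * LinearMap.toMatrix b b (ρ.ρ σ) * ((u⁻¹ : (M2 A)ˣ) : M2 A) := by
  have h1 := MatrixModel.isEquiv_ofMatrix_matrixOf ρ b
  have h2 := ofMatrix_isEquiv_conjHom u (MatrixModel.matCont_matrixOf ρ b)
  obtain ⟨b', hb'⟩ := exists_basis_of_isEquiv (adicIsEquiv_trans h1 h2)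
  exact ⟨b', fun σ => by rw [hb' σ, conjHom_apply, MatrixModel.matrixOf_apply]⟩

/-- The basis of `ρbar.V` in the matrix identity can be prescribed (with the same `c`). -/
theorem MatrixIdentity.change_basis {bbar : Module.Basis (Fin 2) k ρbar.V}
    {b : Module.Basis (Fin 2) (DualNumber k) ρ.V} {c : Γ → Module.End k ρbar.V}
    (h : MatrixIdentity ρbar ρ bbar b c) (bbar₀ : Module.Basis (Fin 2) k ρbar.V) :
    ∃ b₀ : Module.Basis (Fin 2) (DualNumber k) ρ.V, MatrixIdentity ρbar ρ bbar₀ b₀ c := by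
  set Q : M2 k := bbar₀.toMatrix bbar with hQ
  set Q' : M2 k := bbar.toMatrix bbar₀ with hQ'
  have hQQ' : Q * Q' = 1 := Module.Basis.toMatrix_mul_toMatrix_flip bbar₀ bbar
  have hQ'Q : Q' * Q = 1 := Module.Basis.toMatrix_mul_toMatrix_flip bbar bbar₀
  have hcb : ∀ f : Module.End k ρbar.V,
      LinearMap.toMatrix bbar₀ bbar₀ f = Q * LinearMap.toMatrix bbar bbar f * Q' := fun f =>
    (basis_toMatrix_mul_linearMap_toMatrix_mul_basis_toMatrix bbar₀ bbar bbar₀ bbar f).symm
  let u : (M2 (DualNumber k))ˣ :=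
    ⟨ofParts Q 0, ofParts Q' 0, by rw [ofParts_mul, hQQ', ← ofParts_one]; simp,
      by rw [ofParts_mul, hQ'Q, ← ofParts_one]; simp⟩
  obtain ⟨b₀, hb₀⟩ := exists_basis_conj ρ b u
  refine ⟨b₀, fun g => ?_⟩
  rw [hb₀ g, h g, map_inl_add_map_inr, map_inl_add_map_inr, hcb, hcb]
  exact ofParts_conj Q Q' _ _

/-- The basis of `ρbar.V` in `IsLiftCocycle` can be prescribed. -/
theorem exists_basis_of_isLiftCocycle {c : Γ → Module.End k ρbar.V}
    (h : IsLiftCocycle ρbar ρ c) (bbar₀ : Module.Basis (Fin 2) k ρbar.V) :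
    ∃ b₀ : Module.Basis (Fin 2) (DualNumber k) ρ.V, MatrixIdentity ρbar ρ bbar₀ b₀ c := by
  obtain ⟨bbar, b, hb⟩ := h
  exact MatrixIdentity.change_basis hb bbar₀

end Dictionary

/-! ### The three contracts of WP1 -/

section Contracts

open Fermat.Agent.TW.Spec.Defs52 Fermat.Agent.TW.Spec.Contract52

variable (p : ℕ) [Fact p.Prime] [Algebra (ZMod p) k] (ρbar : ResidualGaloisRep k)

include p in
theorem charP_of_algebra_zmod : CharP k p :=
  charP_of_injective_algebraMap (algebraMap (ZMod p) k).injective p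

theorem ad0ToEnd_injective : Function.Injective (ad0ToEnd p ρbar) := fun x y h => by
  have : (show End0 ρbar from x) = (show End0 ρbar from y) := Subtype.ext h
  exact this

theorem ad0ToEnd_add (x y : ad0 p ρbar) :
    ad0ToEnd p ρbar (x + y) = ad0ToEnd p ρbar x + ad0ToEnd p ρbar y := rfl

theorem ad0ToEnd_sub (x y : ad0 p ρbar) :
    ad0ToEnd p ρbar (x - y) = ad0ToEnd p ρbar x - ad0ToEnd p ρbar y := rfl

/-- **WP1 (1.1).** Every lift with cyclotomic determinant has a class in `H¹(GQ, ad⁰ ρbar)`. -/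
theorem cocycleExists : CocycleExists p ρbar := by
  intro ρ hres hdet
  have : CharP k p := charP_of_algebra_zmod p
  let bbar := Module.finBasisOfFinrankEq k ρbar.V ρbar.finrank_eq
  obtain ⟨r, b, hb, hl⟩ := exists_isLiftOf p ρbar bbar ρ hres hdet
  have hT : ∀ X : M2 k, LinearMap.toMatrix bbar bbar (Matrix.toLin bbar bbar X) = X :=
    LinearMap.toMatrix_toLin bbar bbar
  have htr : ∀ g, Matrix.toLin bbar bbar (cocyc r g) ∈ End0 ρbar := fun g => by
    rw [mem_End0_iff, LinearMap.trace_eq_matrix_trace k bbar, hT, hl.trace_cocyc g]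
  let cf : Γ → ad0 p ρbar := fun g => (⟨Matrix.toLin bbar bbar (cocyc r g), htr g⟩ : End0 ρbar)
  have hcf : ∀ g, ad0ToEnd p ρbar (cf g) = Matrix.toLin bbar bbar (cocyc r g) := fun g => rfl
  have hcoc : cf ∈ cocycles₁ (ad0 p ρbar) := by
    rw [mem_cocycles₁_iff]
    intro g h
    apply ad0ToEnd_injective
    rw [ad0ToEnd_add, ad0_ρ_apply, hcf, hcf, hcf]
    apply (LinearMap.toMatrix bbar bbar).injective
    rw [map_add, LinearMap.toMatrix_mul, LinearMap.toMatrix_mul, hT, hT, hT, cocyc_mul,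
      hl.resid_eq]
    rfl
  refine ⟨(H1π (ad0 p ρbar)).hom ⟨cf, hcoc⟩, ⟨cf, hcoc⟩, ⟨bbar, b, ?_⟩, rfl⟩
  have key : MatrixIdentity ρbar ρ bbar b (fun g => ad0ToEnd p ρbar (cf g)) := by
    rw [matrixIdentity_iff]
    have hr : MatrixModel.matrixOf ρ b = r := MonoidHom.ext hb
    rw [hr]
    exact ⟨hl.resid_eq, fun g => (hT _).symm⟩
  exact key

/-- **WP1 (1.2).** If the lift is unramified outside `S`, its class is `S`-level-constant. -/
theorem cocycleUnramified : CocycleUnramified p ρbar := by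
  intro S ρ x hx hur
  obtain ⟨c, ⟨bbar, b, hmat⟩, rfl⟩ := hx
  rw [mem_continuousH1S_iff]
  refine ⟨c, ?_, rfl⟩
  have hmat' : MatrixIdentity ρbar ρ bbar b (fun g => ad0ToEnd p ρbar (c.1 g)) := hmat
  obtain ⟨-, hc⟩ := (matrixIdentity_iff bbar b _).1 hmat'
  have hr : MatCont (MatrixModel.matrixOf ρ b) := MatrixModel.matCont_matrixOf ρ b
  have hur' : ∀ q : Nat.Primes, q ∉ S → ∀ P : ValuationSubring Qbar, P.LiesOverPrime (q : ℕ) →
      ∀ σ ∈ P.inertiaSubgroupIn ℚ, MatrixModel.matrixOf ρ b σ = 1 := by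
    intro q hq P hP σ hσ
    rw [MatrixModel.matrixOf_apply, hur q hq P hP σ hσ]
    exact LinearMap.toMatrix_one b
  obtain ⟨F, hFS, hF⟩ := exists_isUnramifiedOutside_forall_eq_one S hr hur'
  refine ⟨F, hFS, fun g s hs => ?_⟩
  apply ad0ToEnd_injective
  apply (LinearMap.toMatrix bbar bbar).injective
  have h1 := hc (g * s)
  have h2 := hc g
  exact h1.symm.trans ((cocyc_mul_of_eq_one g (hF s hs)).trans h2)

/-- **WP1 (1.3).** Lifts with the same class are equivalent. -/
theorem cocycleInjective : CocycleInjective p ρbar := by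
  intro ρ ρ' x hx hx'
  obtain ⟨c, hlc, hcx⟩ := hx
  obtain ⟨c', hlc', hcx'⟩ := hx'
  let bbar := Module.finBasisOfFinrankEq k ρbar.V ρbar.finrank_eq
  obtain ⟨b, hb⟩ := exists_basis_of_isLiftCocycle hlc bbar
  obtain ⟨b', hb'⟩ := exists_basis_of_isLiftCocycle hlc' bbar
  obtain ⟨hres, hc⟩ := (matrixIdentity_iff bbar b _).1 hb
  obtain ⟨hres', hc'⟩ := (matrixIdentity_iff bbar b' _).1 hb'
  have hcob : (H1π (ad0 p ρbar)).hom c = (H1π (ad0 p ρbar)).hom c' := hcx.trans hcx'.symm
  rw [H1π_eq_iff] at hcob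
  obtain ⟨X, hX⟩ := hcob
  have hdiff : ∀ g, cocyc (MatrixModel.matrixOf ρ b) g - cocyc (MatrixModel.matrixOf ρ' b') g =
      resid (MatrixModel.matrixOf ρ b) g * LinearMap.toMatrix bbar bbar (ad0ToEnd p ρbar X) *
        resid (MatrixModel.matrixOf ρ b) g⁻¹ - LinearMap.toMatrix bbar bbar (ad0ToEnd p ρbar X) := by
    intro g
    have h1 : (ad0 p ρbar).ρ g X - X = c.1 g - c'.1 g := congrFun hX g
    have h2 := congrArg (ad0ToEnd p ρbar) h1
    rw [ad0ToEnd_sub, ad0ToEnd_sub, ad0_ρ_apply] at h2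
    have h3 := congrArg (LinearMap.toMatrix bbar bbar) h2
    rw [map_sub, map_sub, LinearMap.toMatrix_mul, LinearMap.toMatrix_mul] at h3
    rw [hc g, hc' g, hres]
    exact h3.symm
  have hconj := conj_of_coboundary (hres.trans hres'.symm) _ hdiff
  have hunit : IsUnit (ofParts (1 : M2 k) (LinearMap.toMatrix bbar bbar (ad0ToEnd p ρbar X))) :=
    isUnit_of_isUnit_fstM (by rw [fstM_ofParts]; exact isUnit_one)
  obtain ⟨u, hu⟩ := hunit
  have e1 := MatrixModel.isEquiv_ofMatrix_matrixOf ρ b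
  have e2 := MatrixModel.isEquiv_ofMatrix_matrixOf ρ' b'
  have e3 : (ofMatrix (MatrixModel.matrixOf ρ b) (MatrixModel.matCont_matrixOf ρ b)).IsEquiv
      (ofMatrix (MatrixModel.matrixOf ρ' b') (MatrixModel.matCont_matrixOf ρ' b')) :=
    (ofMatrix_isEquiv_iff_units _ _).2 ⟨u, fun σ => by rw [hu]; exact hconj σ⟩
  exact adicIsEquiv_trans e1 (adicIsEquiv_trans e3 (adicIsEquiv_symm e2))

end Contracts

end Fermat.Agent.TW.Cocycle.Contract95
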