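/-
Program TW (S56), WP1 leftovers (helper95): the hypotheses of S55 / `Contract52.IsSmoothUnramified`
for the End-model `Defs52.ad0 p ρbar` and its Tate dual `Defs52.ad0Dual p ρbar`
(the authoritative `Contract52` objects).
-/
import Mathlib
import Fermat.Agent.TW.Spec.Contract52
import Fermat.Agent.PT.BR.DualTwist7

set_option autoImplicit false

namespace Fermat.Agent.TW.Cocycle.SmoothEnd95

open Fermat.Agent.TW.Spec.Defs52 Fermat.Agent.TW.Spec.Contract52
open ExtCitation

variable (p : ℕ) [Fact p.Prime] {k : Type} [Field k] [Algebra (ZMod p) k]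
  (ρbar : ResidualGaloisRep k)

theorem ad0ToEnd_inj : Function.Injective (ad0ToEnd p ρbar) := fun x y h => by
  have : (show End0 ρbar from x) = (show End0 ρbar from y) := Subtype.ext h
  exact this

/-- `ad⁰ ρbar` is trivial on the kernel of `ρbar`. -/
theorem ad0_ρ_eq_one {s : GQ} (hs : ρbar.ρ s = 1) : (ad0 p ρbar).ρ s = 1 := by
  have hs' : ρbar.ρ s⁻¹ = 1 := by
    have h := map_mul ρbar.ρ s⁻¹ s
    rw [inv_mul_cancel, map_one, hs, mul_one] at h
    exact h.symm
  refine LinearMap.ext fun x => ?_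
  apply ad0ToEnd_inj p ρbar
  rw [ad0_ρ_apply, hs, hs', one_mul, mul_one]
  rfl

/-- `ad⁰ ρbar` is finite over `ZMod p` when `k` is. -/
theorem finite_ad0 [Module.Finite (ZMod p) k] : Module.Finite (ZMod p) (ad0 p ρbar) := by
  let _ : Module (ZMod p) (End0 ρbar) := fpModule p ρbar
  have : IsScalarTower (ZMod p) k (End0 ρbar) :=
    ⟨fun a b f => by
      show (a • b) • f = algebraMap (ZMod p) k a • (b • f)
      rw [Algebra.smul_def, mul_smul]⟩
  have : Module.Finite (ZMod p) (End0 ρbar) := Module.Finite.trans k (End0 ρbar)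
  exact this

variable (S : Finset Nat.Primes)

/-- The hypotheses of S55 for `M = ad⁰ ρbar` (End model). -/
theorem isSmoothUnramified_ad0 [Module.Finite (ZMod p) k]
    (hur : ∀ q : Nat.Primes, q ∉ S → ρbar.IsUnramifiedAt (q : ℕ)) :
    IsSmoothUnramified p S (ad0 p ρbar) where
  finite := finite_ad0 p ρbar
  smooth m := by
    obtain ⟨L, hL, h⟩ := ρbar.factorsThroughFiniteLevel
    refine ⟨L, hL, fun s hs => ?_⟩
    have h1 : ρbar.ρ s = 1 :=
      h s fun x hx => (IntermediateField.mem_fixingSubgroup_iff L s).1 hs x hx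
    rw [ad0_ρ_eq_one p ρbar h1]
    rfl
  unramified q hq A hA g hg := ad0_ρ_eq_one p ρbar (hur q hq A hA g hg)

/-- The hypotheses of S55 for the Tate dual `M' = (ad⁰ ρbar)^*(1)` (End model). -/
theorem isSmoothUnramified_ad0Dual [Module.Finite (ZMod p) k] (hpS : pPrime p ∈ S)
    (hur : ∀ q : Nat.Primes, q ∉ S → ρbar.IsUnramifiedAt (q : ℕ)) :
    IsSmoothUnramified p S (ad0Dual p ρbar) := by
  have hM := isSmoothUnramified_ad0 p ρbar S hur
  have := hM.finite
  exact
    { finite := Fermat.Agent.PT.BR.DualTwist7.finiteDimensional_dualTwist (ad0 p ρbar)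
      smooth := Fermat.Agent.PT.BR.DualTwist7.smooth_dualTwist (ad0 p ρbar) hM.smooth
      unramified := Fermat.Agent.PT.BR.DualTwist7.unram_dualTwist (ad0 p ρbar) hpS hM.unramified }

/-- Same statement phrased with `dualOf`. -/
theorem isSmoothUnramified_dualOf_ad0 [Module.Finite (ZMod p) k] (hpS : pPrime p ∈ S)
    (hur : ∀ q : Nat.Primes, q ∉ S → ρbar.IsUnramifiedAt (q : ℕ)) :
    IsSmoothUnramified p S (dualOf p (ad0 p ρbar)) :=
  isSmoothUnramified_ad0Dual p ρbar S hpS hur

end Fermat.Agent.TW.Cocycle.SmoothEnd95
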