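/-
Program TW (S56), helper95: the local Galois group surjects onto the decomposition group.

`localGaloisToGlobal q : Gal(PadicAlgCl q / ℚ_q) →* Gal(ℚ̄/ℚ)` (Prelude) is injective with image
contained in the decomposition group of `padicPlace q` (Prelude + `PT/BR/LocInj13`). Here we prove
that its image is EXACTLY the decomposition group:

* `norm_padicEmbedding_apply_eq` : `σ ∈ D` preserves the `q`-adic norm `x ↦ ‖ι x‖` of `ℚ̄`;
* `exists_localGaloisToGlobal_eq` : every `σ ∈ D` is `localGaloisToGlobal q τ` for some `τ`;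
* `range_localGaloisToGlobal`     : `(localGaloisToGlobal q).range = D`.
-/
import Mathlib
import Fermat.Prelude.Def_GaloisRep_CompletionBridge
import Fermat.Prelude.Def_ExtEndgame_ProductionDatum
import Fermat.Agent.PT.BR.LocInj13

set_option autoImplicit false

open scoped NNReal Pointwise TensorProduct

namespace Fermat.Agent.TW.Cocycle.DecompSurj95

local notation "Qbar" => AlgebraicClosure ℚ
local notation "Γ" => (AlgebraicClosure ℚ ≃ₐ[ℚ] AlgebraicClosure ℚ)

variable (q : ℕ) [Fact q.Prime]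

/-! ### Step 1: the decomposition group preserves the norm -/

theorem mem_padicPlace_iff_norm {x : Qbar} : x ∈ padicPlace q ↔ ‖padicEmbedding q x‖ ≤ 1 := by
  rw [mem_padicPlace_iff, ← NNReal.coe_le_coe, coe_nnnorm, NNReal.coe_one]

/-- Elements of the decomposition group preserve the valuation ring. -/
theorem apply_mem_padicPlace_iff {σ : Γ} (hσ : σ ∈ (padicPlace q).decompositionSubgroup ℚ)
    (x : Qbar) : σ x ∈ padicPlace q ↔ x ∈ padicPlace q := by
  have h1 : σ • padicPlace q = padicPlace q := hσ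
  have h2 : σ x ∈ σ • padicPlace q ↔ σ⁻¹ • (σ x) ∈ padicPlace q :=
    ValuationSubring.mem_pointwise_smul_iff_inv_smul_mem
  rw [h1] at h2
  rw [h2, AlgEquiv.smul_def]
  have : σ⁻¹ (σ x) = x := σ.symm_apply_apply x
  rw [this]

theorem norm_padicEmbedding_natCast_zpow (m : ℤ) :
    ‖padicEmbedding q ((q : Qbar) ^ m)‖ = (q : ℝ) ^ (-m) := by
  rw [map_zpow₀, map_natCast, norm_zpow]
  have h1 : ‖(q : PadicAlgCl q)‖ = (q : ℝ)⁻¹ := by
    rw [← map_natCast (algebraMap ℚ_[q] (PadicAlgCl q)), PadicAlgCl.norm_extends, Padic.norm_p]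
  rw [h1, inv_zpow, zpow_neg]

/-- No element of the decomposition group increases the norm. -/
theorem not_norm_lt {σ : Γ} (hσ : σ ∈ (padicPlace q).decompositionSubgroup ℚ) (x : Qbar) :
    ¬ ‖padicEmbedding q x‖ < ‖padicEmbedding q (σ x)‖ := by
  intro hlt
  set a := ‖padicEmbedding q x‖ with ha
  set b := ‖padicEmbedding q (σ x)‖ with hb
  have hq1 : (1 : ℝ) < q := by exact_mod_cast (Fact.out : q.Prime).one_lt
  have hq0 : (0 : ℝ) < q := lt_trans zero_lt_one hq1
  have hb0 : 0 < b := lt_of_le_of_lt (norm_nonneg _) hlt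
  have hx0 : x ≠ 0 := by
    rintro rfl
    rw [hb, map_zero, map_zero, norm_zero] at hb0
    exact lt_irrefl _ hb0
  have ha0 : 0 < a := by
    rw [ha, norm_pos_iff]
    exact (map_ne_zero (padicEmbedding q)).2 hx0
  -- choose `n` with `(b / a) ^ n > q`
  have hba : 1 < b / a := (one_lt_div ha0).2 hlt
  obtain ⟨n, hn⟩ := pow_unbounded_of_one_lt (q : ℝ) hba
  have han : 0 < a ^ n := pow_pos ha0 n
  -- choose `m` with `q ^ m ≤ a ^ n < q ^ (m + 1)`
  obtain ⟨m, hm1, hm2⟩ := exists_mem_Ico_zpow han hq1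
  have hbn : (q : ℝ) ^ (m + 1) < b ^ n := by
    have h1 : (q : ℝ) ^ (m + 1) = q ^ m * q := zpow_add_one₀ hq0.ne' m
    have h2 : (b / a) ^ n * a ^ n = b ^ n := by
      rw [← mul_pow, div_mul_cancel₀ _ ha0.ne']
    calc (q : ℝ) ^ (m + 1) = q ^ m * q := h1
      _ ≤ a ^ n * q := by gcongr
      _ < a ^ n * (b / a) ^ n := by gcongr
      _ = b ^ n := by rw [mul_comm, h2]
  -- the element `y = x ^ n * q ^ (m + 1)` lies in the place but `σ y` does not
  set y : Qbar := x ^ n * (q : Qbar) ^ (m + 1) with hy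
  have hσy : σ y = (σ x) ^ n * (q : Qbar) ^ (m + 1) := by
    rw [hy, map_mul, map_pow, map_zpow₀, map_natCast]
  have hy1 : ‖padicEmbedding q y‖ = a ^ n * (q : ℝ) ^ (-(m + 1)) := by
    rw [hy, map_mul, norm_mul, map_pow, norm_pow, norm_padicEmbedding_natCast_zpow]
  have hy2 : ‖padicEmbedding q (σ y)‖ = b ^ n * (q : ℝ) ^ (-(m + 1)) := by
    rw [hσy, map_mul, norm_mul, map_pow, norm_pow, norm_padicEmbedding_natCast_zpow]
  have hqpos : (0 : ℝ) < (q : ℝ) ^ (m + 1) := zpow_pos hq0 _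
  have hmem : y ∈ padicPlace q := by
    rw [mem_padicPlace_iff_norm, hy1, zpow_neg, ← div_eq_mul_inv, div_le_one hqpos]
    exact hm2.le
  have hnmem : ¬ σ y ∈ padicPlace q := by
    rw [mem_padicPlace_iff_norm, hy2, zpow_neg, ← div_eq_mul_inv, div_le_one hqpos, not_le]
    exact hbn
  exact hnmem ((apply_mem_padicPlace_iff q hσ y).2 hmem)

/-- **The decomposition group acts by isometries** for the `q`-adic norm of `ℚ̄`. -/
theorem norm_padicEmbedding_apply_eq {σ : Γ} (hσ : σ ∈ (padicPlace q).decompositionSubgroup ℚ)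
    (x : Qbar) : ‖padicEmbedding q (σ x)‖ = ‖padicEmbedding q x‖ := by
  apply le_antisymm
  · exact not_lt.1 (not_norm_lt q hσ x)
  · have hσ' : σ⁻¹ ∈ (padicPlace q).decompositionSubgroup ℚ := inv_mem hσ
    have h := not_norm_lt q hσ' (σ x)
    have h1 : σ⁻¹ (σ x) = x := σ.symm_apply_apply x
    rw [h1] at h
    exact not_lt.1 h

/-! ### Step 2: finite `ℚ_q`-linear combinations -/

/-- For a finite family `β` of elements of `ℚ̄` and `σ ∈ D`, the `ℚ_q`-linear combinations
`∑ c j • ι (β j)` and `∑ c j • ι (σ (β j))` have the same norm. -/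
theorem norm_sum_smul_eq {σ : Γ} (hσ : σ ∈ (padicPlace q).decompositionSubgroup ℚ)
    {J : Type} [Fintype J] (β : J → Qbar) (c : J → ℚ_[q]) :
    ‖∑ j, c j • padicEmbedding q (β j)‖ = ‖∑ j, c j • padicEmbedding q (σ (β j))‖ := by
  let F : (J → ℚ_[q]) → ℝ := fun c => ‖∑ j, c j • padicEmbedding q (β j)‖
  let G : (J → ℚ_[q]) → ℝ := fun c => ‖∑ j, c j • padicEmbedding q (σ (β j))‖
  have hF : Continuous F :=
    continuous_norm.comp (continuous_finsetSum _ fun j _ =>
      (continuous_apply j).smul continuous_const)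
  have hG : Continuous G :=
    continuous_norm.comp (continuous_finsetSum _ fun j _ =>
      (continuous_apply j).smul continuous_const)
  have hdense : DenseRange (Pi.map fun (_ : J) => ((↑) : ℚ → ℚ_[q])) :=
    DenseRange.piMap fun _ => Padic.denseRange_ratCast q
  have hFG : F ∘ (Pi.map fun (_ : J) => ((↑) : ℚ → ℚ_[q])) =
      G ∘ (Pi.map fun (_ : J) => ((↑) : ℚ → ℚ_[q])) := by
    funext r
    show ‖∑ j, ((r j : ℚ) : ℚ_[q]) • padicEmbedding q (β j)‖ =
      ‖∑ j, ((r j : ℚ) : ℚ_[q]) • padicEmbedding q (σ (β j))‖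
    have h1 : ∀ (γ : J → Qbar), ∑ j, ((r j : ℚ) : ℚ_[q]) • padicEmbedding q (γ j) =
        padicEmbedding q (∑ j, r j • γ j) := by
      intro γ
      rw [map_sum]
      refine Finset.sum_congr rfl fun j _ => ?_
      rw [map_rat_smul, Rat.cast_smul_eq_qsmul]
    rw [h1 β, h1 fun j => σ (β j)]
    have h2 : ∑ j, r j • σ (β j) = σ (∑ j, r j • β j) := by
      rw [map_sum]
      refine Finset.sum_congr rfl fun j _ => ?_
      rw [map_rat_smul]
    rw [h2, norm_padicEmbedding_apply_eq q hσ]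
  exact congrFun (DenseRange.equalizer hdense hF hG hFG) c

/-! ### Step 3: the extension of `σ` to `PadicAlgCl q` -/

section Extension

local instance instTowerQqPadic95 : IsScalarTower ℚ ℚ_[q] (PadicAlgCl q) :=
  IsScalarTower.of_algebraMap_eq' (Subsingleton.elim _ _)

/-- The natural map `ℚ_q ⊗_ℚ ℚ̄ → PadicAlgCl q`. -/
noncomputable def tensorMap : ℚ_[q] ⊗[ℚ] Qbar →ₐ[ℚ_[q]] PadicAlgCl q :=
  Algebra.TensorProduct.lift (Algebra.ofId ℚ_[q] (PadicAlgCl q)) (padicEmbedding q)
    fun _ _ => Commute.all _ _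

theorem tensorMap_tmul (c : ℚ_[q]) (β : Qbar) :
    tensorMap q (c ⊗ₜ β) = c • padicEmbedding q β := by
  rw [tensorMap, Algebra.TensorProduct.lift_tmul, Algebra.smul_def]
  rfl

/-- `id ⊗ σ`. -/
noncomputable def tensorSigma (σ : Γ) : ℚ_[q] ⊗[ℚ] Qbar →ₐ[ℚ_[q]] ℚ_[q] ⊗[ℚ] Qbar :=
  Algebra.TensorProduct.map (AlgHom.id ℚ_[q] ℚ_[q]) (σ : Qbar →ₐ[ℚ] Qbar)

theorem tensorSigma_tmul (σ : Γ) (c : ℚ_[q]) (β : Qbar) :
    tensorSigma q σ (c ⊗ₜ β) = c ⊗ₜ σ β := rfl

/-- `id ⊗ σ` preserves the norm of the image in `PadicAlgCl q`. -/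
theorem norm_tensorMap_tensorSigma {σ : Γ} (hσ : σ ∈ (padicPlace q).decompositionSubgroup ℚ)
    (t : ℚ_[q] ⊗[ℚ] Qbar) : ‖tensorMap q (tensorSigma q σ t)‖ = ‖tensorMap q t‖ := by
  obtain ⟨S, rfl⟩ := TensorProduct.exists_finset t
  rw [map_sum, map_sum, map_sum]
  have h1 : ∑ i ∈ S, tensorMap q (i.1 ⊗ₜ[ℚ] i.2) =
      ∑ j : S, (j : ℚ_[q] × Qbar).1 • padicEmbedding q (j : ℚ_[q] × Qbar).2 := by
    rw [← Finset.sum_coe_sort S]
    exact Finset.sum_congr rfl fun j _ => tensorMap_tmul q _ _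
  have h2 : ∑ i ∈ S, tensorMap q (tensorSigma q σ (i.1 ⊗ₜ[ℚ] i.2)) =
      ∑ j : S, (j : ℚ_[q] × Qbar).1 • padicEmbedding q (σ (j : ℚ_[q] × Qbar).2) := by
    rw [← Finset.sum_coe_sort S]
    exact Finset.sum_congr rfl fun j _ => by rw [tensorSigma_tmul, tensorMap_tmul]
  rw [h1, h2]
  exact (norm_sum_smul_eq q hσ (fun j : S => (j : ℚ_[q] × Qbar).2)
    (fun j : S => (j : ℚ_[q] × Qbar).1)).symm

/-- `ℚ_q ⊗_ℚ ℚ̄ → PadicAlgCl q` is surjective (Krasner). -/
theorem tensorMap_surjective : Function.Surjective (tensorMap q) := by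
  intro a
  obtain ⟨β, hβ⟩ := Fermat.Agent.PT.BR.LocInj13.exists_mem_adjoin_padicEmbedding q a
  have halg : IsAlgebraic ℚ_[q] (padicEmbedding q β) := Algebra.IsAlgebraic.isAlgebraic _
  have h1 : a ∈ (IntermediateField.adjoin ℚ_[q] {padicEmbedding q β}).toSubalgebra := hβ
  rw [IntermediateField.adjoin_simple_toSubalgebra_of_isAlgebraic halg] at h1
  have h2 : Algebra.adjoin ℚ_[q] {padicEmbedding q β} ≤ (tensorMap q).range := by
    rw [Algebra.adjoin_le_iff]
    rintro _ rfl
    refine ⟨1 ⊗ₜ β, ?_⟩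
    show tensorMap q (1 ⊗ₜ β) = padicEmbedding q β
    rw [tensorMap_tmul, one_smul]
  exact h2 h1

/-- The `ℚ_q`-algebra endomorphism of `PadicAlgCl q` extending `σ ∈ D`. -/
noncomputable def extendHom {σ : Γ} (hσ : σ ∈ (padicPlace q).decompositionSubgroup ℚ) :
    PadicAlgCl q →ₐ[ℚ_[q]] PadicAlgCl q :=
  AlgHom.liftOfSurjective (tensorMap q) (tensorMap_surjective q)
    ((tensorMap q).comp (tensorSigma q σ)) (by
      intro t ht
      rw [RingHom.mem_ker] at ht ⊢
      have h := norm_tensorMap_tensorSigma q hσ t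
      have ht' : tensorMap q t = 0 := ht
      rw [ht', norm_zero, norm_eq_zero] at h
      exact h)

theorem extendHom_padicEmbedding {σ : Γ} (hσ : σ ∈ (padicPlace q).decompositionSubgroup ℚ)
    (β : Qbar) : extendHom q hσ (padicEmbedding q β) = padicEmbedding q (σ β) := by
  have h1 : padicEmbedding q β = tensorMap q (1 ⊗ₜ β) := by rw [tensorMap_tmul, one_smul]
  rw [h1, extendHom, AlgHom.liftOfSurjective_apply, AlgHom.comp_apply, tensorSigma_tmul,
    tensorMap_tmul, one_smul]

/-- **Every element of the decomposition group of `padicPlace q` comes from the local Galois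
group.** -/
theorem exists_localGaloisToGlobal_eq {σ : Γ}
    (hσ : σ ∈ (padicPlace q).decompositionSubgroup ℚ) :
    ∃ τ : PadicAlgCl q ≃ₐ[ℚ_[q]] PadicAlgCl q, localGaloisToGlobal q τ = σ := by
  let τ : PadicAlgCl q ≃ₐ[ℚ_[q]] PadicAlgCl q :=
    AlgEquiv.ofBijective (extendHom q hσ) (Algebra.IsAlgebraic.algHom_bijective _)
  refine ⟨τ, AlgEquiv.ext fun x => ?_⟩
  have hinj : Function.Injective (padicEmbedding q) := (padicEmbedding q).injective
  apply hinj
  rw [padicEmbedding_localGaloisToGlobal]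
  exact extendHom_padicEmbedding q hσ x

/-- The image of the local Galois group is the decomposition group. -/
theorem range_localGaloisToGlobal :
    (localGaloisToGlobal q).range = (padicPlace q).decompositionSubgroup ℚ := by
  ext σ
  constructor
  · rintro ⟨τ, rfl⟩
    exact localGaloisToGlobal_mem_decompositionSubgroup q τ
  · intro hσ
    exact exists_localGaloisToGlobal_eq q hσ

end Extension

/-! ### The versions for `ExtCitation.primeLocalToGlobal` -/

section PrimeLocal

open ExtCitation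

theorem inertiaSubgroupIn_le_decompositionSubgroup (A : ValuationSubring Qbar) :
    A.inertiaSubgroupIn ℚ ≤ A.decompositionSubgroup ℚ :=
  Subgroup.map_subtype_le _

/-- The image of the local Galois group at `q` is the decomposition group of `primeLocalPlace q`. -/
theorem range_primeLocalToGlobal (q : Nat.Primes) :
    (primeLocalToGlobal q).range = (primeLocalPlace q).decompositionSubgroup ℚ := by
  have : Fact (q : ℕ).Prime := ⟨q.2⟩
  exact range_localGaloisToGlobal (q : ℕ)

theorem exists_primeLocalToGlobal_eq (q : Nat.Primes) {σ : Γ}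
    (hσ : σ ∈ (primeLocalPlace q).decompositionSubgroup ℚ) :
    ∃ τ : primeLocalGaloisGroup q, primeLocalToGlobal q τ = σ := by
  have h : σ ∈ (primeLocalToGlobal q).range := by rw [range_primeLocalToGlobal]; exact hσ
  exact h

/-- The inertia group of `primeLocalPlace q` lies in the image of the local Galois group. -/
theorem inertiaSubgroupIn_le_range (q : Nat.Primes) :
    (primeLocalPlace q).inertiaSubgroupIn ℚ ≤ (primeLocalToGlobal q).range := by
  rw [range_primeLocalToGlobal]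
  exact inertiaSubgroupIn_le_decompositionSubgroup _

theorem exists_primeLocalToGlobal_eq_of_mem_inertia (q : Nat.Primes) {σ : Γ}
    (hσ : σ ∈ (primeLocalPlace q).inertiaSubgroupIn ℚ) :
    ∃ τ : primeLocalGaloisGroup q, primeLocalToGlobal q τ = σ :=
  inertiaSubgroupIn_le_range q hσ

end PrimeLocal

end Fermat.Agent.TW.Cocycle.DecompSurj95
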