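/-
Program TW (S56), WP1 (cocycle dictionary), file 5 (helper95): the three WP1 contracts of
`Fermat/Agent/TW/Spec/ContractB52.lean` (VERSION B, matrix model):

* `cocycleExists p ρbar rbar (h : IsMatrixOf rbar ρbar) : ContractB52.CocycleExists p ρbar rbar`;
* `cocycleUnramified p rbar : ContractB52.CocycleUnramified p rbar`;
* `cocycleInjective p rbar  : ContractB52.CocycleInjective p rbar`;

and the translation of the Prelude clauses on `ρ` into statements on the matrices
`r σ = toMatrix b b (ρ.ρ σ)`.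
-/
import Mathlib
import Fermat.Agent.TW.Spec.ContractB52
import Fermat.Agent.TW.Cocycle.MatrixLift95

set_option autoImplicit false

namespace Fermat.Agent.TW.Cocycle.ContractB95

open Fermat.Agent.S53 Fermat.Agent.TW.Cocycle.DualMat95 Fermat.Agent.TW.Cocycle.AdRep95
open Fermat.Agent.TW.Cocycle.MatrixLift95 Fermat.Agent.TW.Spec.ContractB52
open Fermat.Agent.TW.Spec.Defs52 (ResIso)
open IsLocalRing TrivSqZeroExt CategoryTheory groupCohomology

local notation "Qbar" => AlgebraicClosure ℚ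
local notation "Γ" => (AlgebraicClosure ℚ ≃ₐ[ℚ] AlgebraicClosure ℚ)

variable {k : Type} [Field k] (p : ℕ) [Fact p.Prime] [Algebra (ZMod p) k]

include p in
theorem charP_of_algebra_zmod' : CharP k p :=
  charP_of_injective_algebraMap (algebraMap (ZMod p) k).injective p

/-- **WP1 (1.1), version B.** -/
theorem cocycleExists (ρbar : ResidualGaloisRep k) (rbar : Γ →* M2 k)
    (hmat : IsMatrixOf rbar ρbar) : CocycleExists p ρbar rbar := by
  intro ρ hres hdet
  have : CharP k p := charP_of_algebra_zmod' p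
  obtain ⟨bbar, hbbar⟩ := hmat
  obtain ⟨r, b, hb, hl⟩ := exists_isLiftOf p ρbar bbar ρ hres hdet
  have h1 : MatrixModel.matrixOf ρ b = r := MonoidHom.ext hb
  have h2 : matrixOfBasisRes ρbar bbar = rbar := MonoidHom.ext fun σ => (hbbar σ).symm
  rw [← h1, h2] at hl
  exact ⟨liftClass (ZMod p) hl, b, hl, rfl⟩

/-- **WP1 (1.2), version B.** -/
theorem cocycleUnramified (rbar : Γ →* M2 k) : CocycleUnramified p rbar := by
  intro S ρ x hx hur
  obtain ⟨b, hl, rfl⟩ := hx
  refine liftClass_mem_continuousH1S (ZMod p) S hl (MatrixModel.matCont_matrixOf ρ b) ?_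
  intro q hq P hP σ hσ
  rw [MatrixModel.matrixOf_apply, hur q hq P hP σ hσ]
  exact LinearMap.toMatrix_one b

/-- **WP1 (1.3), version B.** -/
theorem cocycleInjective (rbar : Γ →* M2 k) : CocycleInjective p rbar := by
  intro ρ ρ' x hx hx'
  obtain ⟨b, hl, hxe⟩ := hx
  obtain ⟨b', hl', hxe'⟩ := hx'
  obtain ⟨u, -, hu⟩ := exists_conj_of_liftClass_eq (ZMod p) hl hl' (hxe.trans hxe'.symm)
  have e1 := MatrixModel.isEquiv_ofMatrix_matrixOf ρ b
  have e2 := MatrixModel.isEquiv_ofMatrix_matrixOf ρ' b'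
  have e3 : (ofMatrix (MatrixModel.matrixOf ρ b) (MatrixModel.matCont_matrixOf ρ b)).IsEquiv
      (ofMatrix (MatrixModel.matrixOf ρ' b') (MatrixModel.matCont_matrixOf ρ' b')) :=
    (ofMatrix_isEquiv_iff_units _ _).2 ⟨u, hu⟩
  exact adicIsEquiv_trans e1 (adicIsEquiv_trans e3 (adicIsEquiv_symm e2))

/-! ### Translation of the Prelude clauses into matrix statements -/

section Translate

variable {A : Type} [CommRing A] [IsLocalRing A] (ρ : GaloisRepAdic A)
  (b : Module.Basis (Fin 2) A ρ.V)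

theorem matrixOf_eq_one_iff (σ : Γ) : MatrixModel.matrixOf ρ b σ = 1 ↔ ρ.ρ σ = 1 := by
  rw [MatrixModel.matrixOf_apply, ← LinearMap.toMatrix_one b]
  exact (LinearMap.toMatrix b b).injective.eq_iff

/-- `IsUnramifiedAt` in matrix form. -/
theorem isUnramifiedAt_iff (q : ℕ) :
    ρ.IsUnramifiedAt q ↔ ∀ P : ValuationSubring Qbar, P.LiesOverPrime q →
      ∀ σ ∈ P.inertiaSubgroupIn ℚ, MatrixModel.matrixOf ρ b σ = 1 := by
  constructor
  · intro h P hP σ hσ
    exact (matrixOf_eq_one_iff ρ b σ).2 (h P hP σ hσ)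
  · intro h P hP σ hσ
    exact (matrixOf_eq_one_iff ρ b σ).1 (h P hP σ hσ)

/-- `IsUnipotentOnInertiaAt` in matrix form. -/
theorem isUnipotentOnInertiaAt_iff (q : ℕ) :
    ρ.IsUnipotentOnInertiaAt q ↔ ∀ P : ValuationSubring Qbar, P.LiesOverPrime q →
      ∀ σ ∈ P.inertiaSubgroupIn ℚ,
        (MatrixModel.matrixOf ρ b σ).charpoly = (Polynomial.X - 1) ^ 2 := by
  constructor
  · intro h P hP σ hσ
    rw [MatrixModel.matrixOf_apply, LinearMap.charpoly_toMatrix]
    exact h P hP σ hσ
  · intro h P hP σ hσ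
    have := h P hP σ hσ
    rwa [MatrixModel.matrixOf_apply, LinearMap.charpoly_toMatrix] at this

/-- The determinant in matrix form. -/
theorem det_matrixOf (σ : Γ) : (MatrixModel.matrixOf ρ b σ).det = LinearMap.det (ρ.ρ σ) := by
  rw [MatrixModel.matrixOf_apply, LinearMap.det_toMatrix]

end Translate

end Fermat.Agent.TW.Cocycle.ContractB95
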