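/-
Program TW (S56), WP1 leftovers (helper95): transport of `H¹`, restriction maps, level-constant
classes, invariants and Tate duals along a morphism / an isomorphism `M ≅ N` of representations.
General (any `M N : Rep k G`); used by `ModelIso95` to pass from the matrix model of `ad⁰` to the
End-model of `Contract52`.
-/
import Mathlib
import Fermat.Prelude.Def_GroupCohomology_ContinuousUnramified
import Fermat.Prelude.Def_GroupCohomology_Selmer

set_option autoImplicit false

universe u

namespace Fermat.Agent.TW.Cocycle.IsoTransport95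

open CategoryTheory groupCohomology

section General

variable {k G H : Type u} [CommRing k] [Group G] [Group H] {M N : Rep.{u} k G}

/-- `H¹` of a morphism of representations, as a linear map. -/
noncomputable def H1map (φ : M ⟶ N) : H1 M →ₗ[k] H1 N :=
  (groupCohomology.map (MonoidHom.id G) φ 1).hom

/-- Push a `1`-cocycle forward along a morphism. -/
noncomputable def cocyclesMap (φ : M ⟶ N) (c : cocycles₁ M) : cocycles₁ N :=
  (mapCocycles₁ (MonoidHom.id G) φ).hom c

@[simp] theorem cocyclesMap_apply (φ : M ⟶ N) (c : cocycles₁ M) (g : G) :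
    cocyclesMap φ c g = φ.hom (c g) := rfl

theorem H1map_H1π (φ : M ⟶ N) (c : cocycles₁ M) :
    H1map φ ((H1π M).hom c) = (H1π N).hom (cocyclesMap φ c) :=
  H1π_comp_map_apply (A := M) (B := N) (MonoidHom.id G) φ c

theorem H1map_id (x : H1 M) : H1map (𝟙 M) x = x := by
  have := groupCohomology.map_id (B := M) (n := 1)
  rw [H1map, this]
  rfl

theorem H1map_comp {P : Rep.{u} k G} (φ : M ⟶ N) (ψ : N ⟶ P) (x : H1 M) :
    H1map (φ ≫ ψ) x = H1map ψ (H1map φ x) := by
  have := groupCohomology.map_id_comp φ ψ 1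
  rw [H1map, this]
  rfl

/-- `H¹` of an isomorphism. -/
noncomputable def H1Iso (e : M ≅ N) : H1 M ≃ₗ[k] H1 N :=
  LinearEquiv.ofLinearMap (H1map e.hom) (H1map e.inv)
    (LinearMap.ext fun x => by
      rw [LinearMap.comp_apply, ← H1map_comp, e.inv_hom_id, H1map_id]; rfl)
    (LinearMap.ext fun x => by
      rw [LinearMap.comp_apply, ← H1map_comp, e.hom_inv_id, H1map_id]; rfl)

@[simp] theorem H1Iso_apply (e : M ≅ N) (x : H1 M) : H1Iso e x = H1map e.hom x := rfl

@[simp] theorem H1Iso_symm_apply (e : M ≅ N) (x : H1 N) : (H1Iso e).symm x = H1map e.inv x := rfl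

/-- Restriction along `f : H →* G` commutes with `H¹` of a morphism. -/
theorem res_H1map (f : H →* G) (φ : M ⟶ N) (x : H1 M) :
    (groupCohomology.map f (𝟙 (Rep.res f N)) 1).hom (H1map φ x) =
      H1map ((Rep.resFunctor f).map φ) ((groupCohomology.map f (𝟙 (Rep.res f M)) 1).hom x) := by
  induction x using H1_induction_on with
  | h c =>
    rw [H1map_H1π]
    have h1 := H1π_comp_map_apply (A := N) (B := Rep.res f N) f (𝟙 (Rep.res f N)) (cocyclesMap φ c)
    have h2 := H1π_comp_map_apply (A := M) (B := Rep.res f M) f (𝟙 (Rep.res f M)) c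
    rw [h1, h2, H1map_H1π]
    congr 1

/-- The iso induced on invariants. -/
noncomputable def invariantsEquiv (e : M ≅ N) : M.ρ.invariants ≃ₗ[k] N.ρ.invariants where
  toFun x := ⟨e.hom.hom x.1, fun g => by
    rw [← Rep.hom_comm_apply, x.2 g]⟩
  map_add' x y := by
    apply Subtype.ext
    simp
  map_smul' a x := by
    apply Subtype.ext
    simp
  invFun y := ⟨e.inv.hom y.1, fun g => by
    rw [← Rep.hom_comm_apply, y.2 g]⟩
  left_inv x := by
    apply Subtype.ext
    simp
  right_inv y := by
    apply Subtype.ext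
    simp

theorem finrank_invariants_eq (e : M ≅ N) :
    Module.finrank k M.ρ.invariants = Module.finrank k N.ρ.invariants :=
  (invariantsEquiv e).finrank_eq

theorem H1map_injective_of_iso (e : M ≅ N) : Function.Injective (H1map e.hom) :=
  (H1Iso e).injective

/-- Level-constant classes (with respect to `r : G →* Gal(Qbar/ℚ)`) are preserved. -/
theorem H1map_mem_continuousH1 (r : G →* (AlgebraicClosure ℚ ≃ₐ[ℚ] AlgebraicClosure ℚ))
    (φ : M ⟶ N) {x : H1 M} (hx : x ∈ continuousH1 r M) : H1map φ x ∈ continuousH1 r N := by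
  obtain ⟨c, hc, rfl⟩ := (mem_continuousH1_iff r M x).1 hx
  rw [H1map_H1π]
  exact H1π_mem_continuousH1 r N (hc.comp (fun m => φ.hom m))

theorem H1Iso_mem_continuousH1_iff (r : G →* (AlgebraicClosure ℚ ≃ₐ[ℚ] AlgebraicClosure ℚ))
    (e : M ≅ N) (x : H1 M) : H1Iso e x ∈ continuousH1 r N ↔ x ∈ continuousH1 r M := by
  constructor
  · intro h
    have := H1map_mem_continuousH1 r e.inv h
    rwa [← H1Iso_symm_apply, LinearEquiv.symm_apply_apply] at this
  · exact H1map_mem_continuousH1 r e.hom

theorem map_continuousH1 (r : G →* (AlgebraicClosure ℚ ≃ₐ[ℚ] AlgebraicClosure ℚ)) (e : M ≅ N) :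
    (continuousH1 r M).map (H1Iso e).toLinearMap = continuousH1 r N := by
  ext y
  constructor
  · rintro ⟨x, hx, rfl⟩
    exact (H1Iso_mem_continuousH1_iff r e x).2 hx
  · intro hy
    refine ⟨(H1Iso e).symm y, ?_, (H1Iso e).apply_symm_apply y⟩
    apply (H1Iso_mem_continuousH1_iff r e _).1
    rw [LinearEquiv.apply_symm_apply]
    exact hy

/-- The level-constant classes of `M` and `N` are isomorphic. -/
noncomputable def continuousH1Equiv (r : G →* (AlgebraicClosure ℚ ≃ₐ[ℚ] AlgebraicClosure ℚ))
    (e : M ≅ N) : continuousH1 r M ≃ₗ[k] continuousH1 r N :=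
  ((H1Iso e).submoduleMap (continuousH1 r M)).trans
    (LinearEquiv.ofEq _ _ (map_continuousH1 r e))

/-- The twisted dual is (contravariantly) functorial for isomorphisms. -/
noncomputable def dualTwistEquiv (e : M ≅ N) (χ : G →* kˣ) :
    (M.ρ.dual.twist χ).Equiv (N.ρ.dual.twist χ) :=
  Representation.Equiv.mk (Representation.equivOfIso e).toLinearEquiv.symm.dualMap (fun g => by
    refine LinearMap.ext fun f => LinearMap.ext fun n => ?_
    show (χ g : k) • f (M.ρ g⁻¹ (e.inv.hom n)) = (χ g : k) • f (e.inv.hom (N.ρ g⁻¹ n))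
    rw [Rep.hom_comm_apply])

noncomputable def dualTwistIso (e : M ≅ N) (χ : G →* kˣ) : M.dualTwist χ ≅ N.dualTwist χ :=
  Rep.mkIso (dualTwistEquiv e χ)

theorem dualTwistIso_hom_apply (e : M ≅ N) (χ : G →* kˣ) (f : M.dualTwist χ) (n : N) :
    ((dualTwistIso e χ).hom.hom f : Module.Dual k N) n = (f : Module.Dual k M) (e.inv.hom n) := rfl

end General

section Galois

local notation "GQ" => (AlgebraicClosure ℚ ≃ₐ[ℚ] AlgebraicClosure ℚ)

variable {k : Type} [CommRing k] {M N : Rep.{0} k GQ} (S : Finset Nat.Primes)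

theorem H1map_mem_continuousH1S (φ : M ⟶ N) {x : H1 M} (hx : x ∈ continuousH1S S M) :
    H1map φ x ∈ continuousH1S S N := by
  obtain ⟨c, hc, rfl⟩ := (mem_continuousH1S_iff S M x).1 hx
  rw [H1map_H1π]
  exact (mem_continuousH1S_iff S N _).2 ⟨cocyclesMap φ c, hc.comp (fun m => φ.hom m), rfl⟩

theorem H1Iso_mem_continuousH1S_iff (e : M ≅ N) (x : H1 M) :
    H1Iso e x ∈ continuousH1S S N ↔ x ∈ continuousH1S S M := by
  constructor
  · intro h
    have := H1map_mem_continuousH1S S e.inv h
    rwa [← H1Iso_symm_apply, LinearEquiv.symm_apply_apply] at this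
  · exact H1map_mem_continuousH1S S e.hom

end Galois

end Fermat.Agent.TW.Cocycle.IsoTransport95
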