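/-
Program TW (S56), WP1 leftovers (helper95): the End-model `Defs52.ad0 p ρbar` of `Contract52` is
isomorphic to the matrix model `ContractB52.adM p rbar` (`rbar = [ρbar]_bbar`), and every
matrix-model deliverable (`ContractB52.*`) implies the corresponding `Contract52.*` deliverable.
-/
import Mathlib
import Fermat.Agent.TW.Spec.ContractB52
import Fermat.Agent.TW.Cocycle.Contract95
import Fermat.Agent.TW.Cocycle.IsoTransport95

set_option autoImplicit false

namespace Fermat.Agent.TW.Cocycle.ModelIso95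

open Fermat.Agent.S53 (MatrixModel.matrixOf matrixOfBasisRes) 
open Fermat.Agent.TW.Cocycle.DualMat95 Fermat.Agent.TW.Cocycle.AdRep95
open Fermat.Agent.TW.Cocycle.Contract95 Fermat.Agent.TW.Cocycle.IsoTransport95
open Fermat.Agent.TW.Spec.Defs52
open CategoryTheory groupCohomology ExtCitation

local notation "M₂" => Matrix (Fin 2) (Fin 2)

section LinearAlgebra

variable {k : Type} [Field k] (ρbar : ResidualGaloisRep k)
  (bbar : Module.Basis (Fin 2) k ρbar.V)

/-- Trace-zero endomorphisms correspond to trace-zero matrices. -/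
noncomputable def end0Equiv : End0 ρbar ≃ₗ[k] sl2 k where
  toFun f := ⟨LinearMap.toMatrix bbar bbar f.1, mem_sl2.2 (by
    rw [← LinearMap.trace_eq_matrix_trace k bbar]
    exact (mem_End0_iff ρbar f.1).1 f.2)⟩
  map_add' f f' := Subtype.ext (map_add (LinearMap.toMatrix bbar bbar) f.1 f'.1)
  map_smul' a f := Subtype.ext (map_smul (LinearMap.toMatrix bbar bbar) a f.1)
  invFun X := ⟨Matrix.toLin bbar bbar X.1, (mem_End0_iff ρbar _).2 (by
    rw [LinearMap.trace_eq_matrix_trace k bbar, LinearMap.toMatrix_toLin]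
    exact mem_sl2.1 X.2)⟩
  left_inv f := Subtype.ext (Matrix.toLin_toMatrix bbar bbar f.1)
  right_inv X := Subtype.ext (LinearMap.toMatrix_toLin bbar bbar X.1)

@[simp] theorem end0Equiv_coe (f : End0 ρbar) :
    ((end0Equiv ρbar bbar f : sl2 k) : M₂ k) = LinearMap.toMatrix bbar bbar f.1 := rfl

end LinearAlgebra

section Iso

variable (p : ℕ) [Fact p.Prime] {k : Type} [Field k] [Algebra (ZMod p) k]
  (ρbar : ResidualGaloisRep k) (bbar : Module.Basis (Fin 2) k ρbar.V)
  (rbar : GQ →* M₂ k) (hb : ∀ σ : GQ, rbar σ = LinearMap.toMatrix bbar bbar (ρbar.ρ σ))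

/-- The `ZMod p`-linear equivalence of carriers. -/
noncomputable def modelLinearEquiv :
    (ad0 p ρbar).V ≃ₗ[ZMod p] (Fermat.Agent.TW.Spec.ContractB52.adM p rbar).V where
  toFun f := end0Equiv ρbar bbar f
  map_add' f f' := map_add (end0Equiv ρbar bbar) _ _
  map_smul' a f := by
    show end0Equiv ρbar bbar (algebraMap (ZMod p) k a • (show End0 ρbar from f)) =
      a • end0Equiv ρbar bbar f
    rw [map_smul, algebraMap_smul]
  invFun X := (end0Equiv ρbar bbar).symm X
  left_inv f := (end0Equiv ρbar bbar).symm_apply_apply f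
  right_inv X := (end0Equiv ρbar bbar).apply_symm_apply X

@[simp] theorem modelLinearEquiv_coe (f : (ad0 p ρbar).V) :
    ((modelLinearEquiv p ρbar bbar rbar f : sl2 k) : M₂ k) =
      LinearMap.toMatrix bbar bbar (ad0ToEnd p ρbar f) := rfl

include hb in
theorem modelLinearEquiv_ρ (g : GQ) (f : (ad0 p ρbar).V) :
    modelLinearEquiv p ρbar bbar rbar ((ad0 p ρbar).ρ g f) =
      (Fermat.Agent.TW.Spec.ContractB52.adM p rbar).ρ g (modelLinearEquiv p ρbar bbar rbar f) := by
  apply Subtype.ext
  rw [modelLinearEquiv_coe, ad0_ρ_apply, LinearMap.toMatrix_mul, LinearMap.toMatrix_mul,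
    ← hb, ← hb]
  rfl

/-- The equivalence of representations between the End-model and the matrix model. -/
noncomputable def modelEquiv :
    (ad0 p ρbar).ρ.Equiv (Fermat.Agent.TW.Spec.ContractB52.adM p rbar).ρ :=
  Representation.Equiv.mk (modelLinearEquiv p ρbar bbar rbar) (fun g =>
    LinearMap.ext fun f => modelLinearEquiv_ρ p ρbar bbar rbar hb g f)

/-- **The End-model of `ad⁰ ρbar` is isomorphic to the matrix model.** -/
noncomputable def modelIso :
    ad0 p ρbar ≅ Fermat.Agent.TW.Spec.ContractB52.adM p rbar :=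
  Rep.mkIso (X := (ad0 p ρbar).V) (Y := (Fermat.Agent.TW.Spec.ContractB52.adM p rbar).V)
    (modelEquiv p ρbar bbar rbar hb)

theorem modelIso_hom_coe (f : ad0 p ρbar) :
    (((modelIso p ρbar bbar rbar hb).hom.hom f : sl2 k) : M₂ k) =
      LinearMap.toMatrix bbar bbar (ad0ToEnd p ρbar f) := rfl

end Iso

section Transport

open Fermat.Agent.TW.Spec

variable (p : ℕ) [Fact p.Prime] {k : Type} [Field k] [Algebra (ZMod p) k]
  (ρbar : ResidualGaloisRep k) (bbar : Module.Basis (Fin 2) k ρbar.V)
  (rbar : GQ →* M₂ k) (hb : ∀ σ : GQ, rbar σ = LinearMap.toMatrix bbar bbar (ρbar.ρ σ))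

/-- A lift class in the End-model is a lift class in the matrix model. -/
theorem isLiftClassB_of_isLiftClass {ρ : GaloisRepAdic (DualNumber k)} {x : H1 (ad0 p ρbar)}
    (hx : IsLiftClass ρbar p ρ x) :
    ContractB52.IsLiftClass p rbar ρ (H1map (modelIso p ρbar bbar rbar hb).hom x) := by
  obtain ⟨c, hlc, rfl⟩ := hx
  obtain ⟨b, hmi⟩ := exists_basis_of_isLiftCocycle hlc bbar
  obtain ⟨hres, hc⟩ := (matrixIdentity_iff bbar b _).1 hmi
  have hrb : matrixOfBasisRes ρbar bbar = rbar := MonoidHom.ext fun σ => (hb σ).symm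
  rw [hrb] at hres
  have hl : IsLiftOf rbar (MatrixModel.matrixOf ρ b) :=
    { resid_eq := hres
      det_eq := fun g => by
        have := (det_eq_inl_iff (MatrixModel.matrixOf ρ b) g).2 (by
          rw [hc g, ← LinearMap.trace_eq_matrix_trace k bbar]
          exact (mem_End0_iff ρbar _).1 (c.1 g).2)
        rwa [hres] at this }
  refine ⟨b, hl, ?_⟩
  rw [H1map_H1π]
  show (H1π _).hom (liftCocycle (ZMod p) hl) = _
  congr 1
  apply cocycles₁_ext
  intro g
  apply Subtype.ext
  exact hc g

/-- The isomorphism of the restrictions to the local group at `q`. -/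
noncomputable def modelIsoAt (q : Nat.Primes) :
    resAt q (ad0 p ρbar) ≅ resAt q (ContractB52.adM p rbar) :=
  (Rep.resFunctor (locAt q)).mapIso (modelIso p ρbar bbar rbar hb)

theorem resH1At_H1map (q : Nat.Primes) (x : H1 (ad0 p ρbar)) :
    resH1At q (ContractB52.adM p rbar) (H1map (modelIso p ρbar bbar rbar hb).hom x) =
      H1Iso (modelIsoAt p ρbar bbar rbar hb q) (resH1At q (ad0 p ρbar) x) :=
  res_H1map (locAt q) (modelIso p ρbar bbar rbar hb).hom x

include hb in
theorem h0At_eq (q : Nat.Primes) :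
    h0At q (ad0 p ρbar) = h0At q (ContractB52.adM p rbar) :=
  finrank_invariants_eq (modelIsoAt p ρbar bbar rbar hb q)

include hb in
/-- **Transport of `LocalBound`** from the matrix model to the End-model. -/
theorem localBound_of_matrix {q : Nat.Primes} {cond : GaloisRepAdic (DualNumber k) → Prop} {δ : ℕ}
    (h : ContractB52.LocalBound p rbar q cond δ) : Contract52.LocalBound p ρbar q cond δ := by
  obtain ⟨L, hfin, hrank, hL⟩ := h
  set E := H1Iso (modelIsoAt p ρbar bbar rbar hb q) with hE
  refine ⟨L.map E.symm.toLinearMap, ?_, ?_, ?_⟩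
  · exact LinearEquiv.finiteDimensional (E.symm.submoduleMap L)
  · rw [← (E.symm.submoduleMap L).finrank_eq, h0At_eq p ρbar bbar rbar hb q]
    exact hrank
  · intro ρ x hx hcond
    have hB := isLiftClassB_of_isLiftClass p ρbar bbar rbar hb hx
    have h1 := hL ρ _ hB hcond
    rw [resH1At_H1map] at h1
    exact ⟨_, h1, E.symm_apply_apply _⟩

include hb in
/-- **Transport of `LocalBoundTW`**. -/
theorem localBoundTW_of_matrix {q : Nat.Primes} (h : ContractB52.LocalBoundTW p rbar q) :
    Contract52.LocalBoundTW p ρbar q := by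
  obtain ⟨hfin, hrank⟩ := h
  have E := continuousH1Equiv (locAt q) (modelIsoAt p ρbar bbar rbar hb q)
  refine ⟨LinearEquiv.finiteDimensional E.symm, ?_⟩
  rw [E.finrank_eq, h0At_eq p ρbar bbar rbar hb q]
  exact hrank

include hb in
/-- **Transport of `GlobalInvariantsZero`**. -/
theorem globalInvariantsZero_of_matrix (h : ContractB52.GlobalInvariantsZero p rbar) :
    Contract52.GlobalInvariantsZero p ρbar := by
  unfold Contract52.GlobalInvariantsZero
  rw [finrank_invariants_eq (modelIso p ρbar bbar rbar hb)]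
  exact h

include hb in
/-- **Transport of `ArchimedeanTerm`**. -/
theorem archimedeanTerm_of_matrix (h : ContractB52.ArchimedeanTerm p rbar) :
    Contract52.ArchimedeanTerm p ρbar := by
  obtain ⟨h1, h2⟩ := h
  let e : Rep.res archimedeanLoc (ad0 p ρbar) ≅ Rep.res archimedeanLoc (ContractB52.adM p rbar) :=
    (Rep.resFunctor archimedeanLoc).mapIso (modelIso p ρbar bbar rbar hb)
  refine ⟨fun x => ?_, ?_⟩
  · apply (H1Iso e).injective
    rw [h1 (H1Iso e x), map_zero]
  · rw [finrank_invariants_eq e]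
    exact h2

/-- The isomorphism of the Tate duals. -/
noncomputable def modelIsoDual :
    ad0Dual p ρbar ≅ ContractB52.adM' p rbar :=
  dualTwistIso (modelIso p ρbar bbar rbar hb) (cycloChar p)

include hb in
/-- **Transport of `KillsDual`**. -/
theorem killsDual_of_matrix {S Q : Finset Nat.Primes} (h : ContractB52.KillsDual p rbar S Q) :
    Contract52.KillsDual p ρbar S Q := by
  intro y hy hres
  set e := modelIsoDual p ρbar bbar rbar hb with he
  apply (H1Iso e).injective
  rw [map_zero]
  apply h _ ((H1Iso_mem_continuousH1S_iff S e y).2 hy)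
  intro q hq
  have := res_H1map (locAt q) e.hom y
  rw [H1Iso_apply]
  refine this.trans ?_
  have h0 : resH1At q (ad0Dual p ρbar) y = 0 := hres q hq
  rw [h0, map_zero]

include hb in
theorem isUnramifiedAt_iff_matrix (q : ℕ) :
    ContractB52.IsUnramifiedAt rbar q ↔ ρbar.IsUnramifiedAt q := by
  constructor
  · intro h P hP σ hσ
    apply (LinearMap.toMatrix bbar bbar).injective
    rw [← hb, h P hP σ hσ]
    exact (LinearMap.toMatrix_one bbar).symm
  · intro h P hP σ hσ
    rw [hb, h P hP σ hσ]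
    exact LinearMap.toMatrix_one bbar

include hb in
theorem distinctFrobEigenvalues_iff_matrix (q : ℕ) :
    ContractB52.DistinctFrobEigenvalues rbar q ↔ Contract52.DistinctFrobEigenvalues ρbar q := by
  have key : ∀ φ : GQ, (rbar φ).charpoly = LinearMap.charpoly (ρbar.ρ φ) := fun φ => by
    rw [hb, LinearMap.charpoly_toMatrix]
  constructor
  · intro h P hP φ hφ
    obtain ⟨α, β, hne, hc⟩ := h P hP φ hφ
    exact ⟨α, β, hne, by rw [← key, hc]⟩
  · intro h P hP φ hφ
    obtain ⟨α, β, hne, hc⟩ := h P hP φ hφ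
    exact ⟨α, β, hne, by rw [key, hc]⟩

include hb in
/-- **Transport of `TWPrimesExist`**. -/
theorem twPrimesExist_of_matrix (h : ContractB52.TWPrimesExist p rbar) :
    Contract52.TWPrimesExist p ρbar := by
  intro T Smin hp hT hur
  obtain ⟨r, hr⟩ := h T Smin hp hT
    (fun q hq => (isUnramifiedAt_iff_matrix ρbar bbar rbar hb q).2 (hur q hq))
  refine ⟨r, fun n => ?_⟩
  obtain ⟨qv, hinj, h1, h2, h3⟩ := hr n
  exact ⟨qv, hinj, h1,
    fun i => (distinctFrobEigenvalues_iff_matrix ρbar bbar rbar hb _).1 (h2 i),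
    killsDual_of_matrix p ρbar bbar rbar hb h3⟩

/-- A lift class in the matrix model is a lift class in the End-model. -/
theorem isLiftClass_of_isLiftClassB {ρ : GaloisRepAdic (DualNumber k)}
    {y : H1 (ContractB52.adM p rbar)} (hy : ContractB52.IsLiftClass p rbar ρ y) :
    IsLiftClass ρbar p ρ (H1map (modelIso p ρbar bbar rbar hb).inv y) := by
  obtain ⟨b, hl, rfl⟩ := hy
  refine ⟨cocyclesMap (modelIso p ρbar bbar rbar hb).inv (liftCocycle (ZMod p) hl), ?_,
    (H1map_H1π _ _).symm⟩
  refine ⟨bbar, b, ?_⟩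
  have hrb : matrixOfBasisRes ρbar bbar = rbar := MonoidHom.ext fun σ => (hb σ).symm
  have key : MatrixIdentity ρbar ρ bbar b (fun g => ad0ToEnd p ρbar
      ((cocyclesMap (modelIso p ρbar bbar rbar hb).inv (liftCocycle (ZMod p) hl)).1 g)) := by
    rw [matrixIdentity_iff, hrb]
    refine ⟨hl.resid_eq, fun g => ?_⟩
    show _ = LinearMap.toMatrix bbar bbar (Matrix.toLin bbar bbar (cocyc (MatrixModel.matrixOf ρ b) g))
    rw [LinearMap.toMatrix_toLin]
  exact key

end Transport

/-! ### The same transports, phrased with `ContractB52.IsMatrixOf` -/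

section Wrappers

open Fermat.Agent.TW.Spec

variable (p : ℕ) [Fact p.Prime] {k : Type} [Field k] [Algebra (ZMod p) k]
  {ρbar : ResidualGaloisRep k} {rbar : GQ →* M₂ k}

/-- Every residual representation has a matrix form. -/
theorem exists_isMatrixOf (ρbar : ResidualGaloisRep k) :
    ∃ rbar : GQ →* M₂ k, ContractB52.IsMatrixOf rbar ρbar :=
  ⟨matrixOfBasisRes ρbar (Module.finBasisOfFinrankEq k ρbar.V ρbar.finrank_eq),
    Module.finBasisOfFinrankEq k ρbar.V ρbar.finrank_eq, fun _ => rfl⟩

/-- The End-model and the matrix model of `ad⁰` are isomorphic. -/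
theorem nonempty_modelIso (hmat : ContractB52.IsMatrixOf rbar ρbar) :
    Nonempty (ad0 p ρbar ≅ ContractB52.adM p rbar) := by
  obtain ⟨bbar, hb⟩ := hmat
  exact ⟨modelIso p ρbar bbar rbar hb⟩

theorem nonempty_modelIsoDual (hmat : ContractB52.IsMatrixOf rbar ρbar) :
    Nonempty (ad0Dual p ρbar ≅ ContractB52.adM' p rbar) := by
  obtain ⟨bbar, hb⟩ := hmat
  exact ⟨modelIsoDual p ρbar bbar rbar hb⟩

theorem localBound_of_isMatrixOf (hmat : ContractB52.IsMatrixOf rbar ρbar) {q : Nat.Primes}
    {cond : GaloisRepAdic (DualNumber k) → Prop} {δ : ℕ}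
    (h : ContractB52.LocalBound p rbar q cond δ) : Contract52.LocalBound p ρbar q cond δ := by
  obtain ⟨bbar, hb⟩ := hmat
  exact localBound_of_matrix p ρbar bbar rbar hb h

theorem localBoundStrictOrdinary_of_isMatrixOf (hmat : ContractB52.IsMatrixOf rbar ρbar)
    (h : ContractB52.LocalBoundStrictOrdinary p rbar) : Contract52.LocalBoundStrictOrdinary p ρbar :=
  localBound_of_isMatrixOf p hmat h

theorem localBoundFlat_of_isMatrixOf (hmat : ContractB52.IsMatrixOf rbar ρbar)
    (h : ContractB52.LocalBoundFlat p rbar) : Contract52.LocalBoundFlat p ρbar :=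
  localBound_of_isMatrixOf p hmat h

theorem localBoundUnipotent_of_isMatrixOf (hmat : ContractB52.IsMatrixOf rbar ρbar) {q : Nat.Primes}
    (h : ContractB52.LocalBoundUnipotent p rbar q) : Contract52.LocalBoundUnipotent p ρbar q :=
  localBound_of_isMatrixOf p hmat h

theorem localBoundTW_of_isMatrixOf (hmat : ContractB52.IsMatrixOf rbar ρbar) {q : Nat.Primes}
    (h : ContractB52.LocalBoundTW p rbar q) : Contract52.LocalBoundTW p ρbar q := by
  obtain ⟨bbar, hb⟩ := hmat
  exact localBoundTW_of_matrix p ρbar bbar rbar hb h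

theorem globalInvariantsZero_of_isMatrixOf (hmat : ContractB52.IsMatrixOf rbar ρbar)
    (h : ContractB52.GlobalInvariantsZero p rbar) : Contract52.GlobalInvariantsZero p ρbar := by
  obtain ⟨bbar, hb⟩ := hmat
  exact globalInvariantsZero_of_matrix p ρbar bbar rbar hb h

theorem archimedeanTerm_of_isMatrixOf (hmat : ContractB52.IsMatrixOf rbar ρbar)
    (h : ContractB52.ArchimedeanTerm p rbar) : Contract52.ArchimedeanTerm p ρbar := by
  obtain ⟨bbar, hb⟩ := hmat
  exact archimedeanTerm_of_matrix p ρbar bbar rbar hb h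

theorem killsDual_of_isMatrixOf (hmat : ContractB52.IsMatrixOf rbar ρbar)
    {S Q : Finset Nat.Primes} (h : ContractB52.KillsDual p rbar S Q) :
    Contract52.KillsDual p ρbar S Q := by
  obtain ⟨bbar, hb⟩ := hmat
  exact killsDual_of_matrix p ρbar bbar rbar hb h

theorem twPrimesExist_of_isMatrixOf (hmat : ContractB52.IsMatrixOf rbar ρbar)
    (h : ContractB52.TWPrimesExist p rbar) : Contract52.TWPrimesExist p ρbar := by
  obtain ⟨bbar, hb⟩ := hmat
  exact twPrimesExist_of_matrix p ρbar bbar rbar hb h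

theorem isUnramifiedAt_iff_of_isMatrixOf (hmat : ContractB52.IsMatrixOf rbar ρbar) (q : ℕ) :
    ContractB52.IsUnramifiedAt rbar q ↔ ρbar.IsUnramifiedAt q := by
  obtain ⟨bbar, hb⟩ := hmat
  exact isUnramifiedAt_iff_matrix ρbar bbar rbar hb q

theorem distinctFrobEigenvalues_iff_of_isMatrixOf (hmat : ContractB52.IsMatrixOf rbar ρbar) (q : ℕ) :
    ContractB52.DistinctFrobEigenvalues rbar q ↔ Contract52.DistinctFrobEigenvalues ρbar q := by
  obtain ⟨bbar, hb⟩ := hmat
  exact distinctFrobEigenvalues_iff_matrix ρbar bbar rbar hb q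

end Wrappers

end Fermat.Agent.TW.Cocycle.ModelIso95
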