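/-
Program TW (S56), WP1 leftovers (helper95): the hypotheses of S55 / `Contract52.IsSmoothUnramified`
for `adM p rbar = AdRep95.ad0 (ZMod p) rbar` and its Tate dual `adM' p rbar`.
-/
import Mathlib
import Fermat.Agent.TW.Spec.ContractB52
import Fermat.Agent.S53.MatrixRes
import Fermat.Agent.PT.BR.DualTwist7

set_option autoImplicit false

namespace Fermat.Agent.TW.Cocycle.Smooth95

open Fermat.Agent.S53 Fermat.Agent.TW.Cocycle.DualMat95 Fermat.Agent.TW.Cocycle.AdRep95
open Fermat.Agent.TW.Spec.ContractB52 Fermat.Agent.TW.Spec.Contract52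
open ExtCitation

local notation "Qbar" => AlgebraicClosure ℚ
local notation "Γ" => (AlgebraicClosure ℚ ≃ₐ[ℚ] AlgebraicClosure ℚ)

variable {k : Type} [Field k]

/-- `ad⁰` of `rbar` is trivial on the kernel of `rbar`. -/
theorem ad0_ρ_eq_one {G : Type} [Group G] (F : Type) [CommRing F] [Algebra F k]
    (rbar : G →* M2 k) {s : G} (hs : rbar s = 1) : (AdRep95.ad0 F rbar).ρ s = 1 := by
  have hs' : rbar s⁻¹ = 1 := by
    have h := hom_inv_mul rbar s
    rwa [hs, mul_one] at h
  refine LinearMap.ext fun X => Subtype.ext ?_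
  show rbar s * (X : M2 k) * rbar s⁻¹ = (X : M2 k)
  rw [hs, hs', one_mul, mul_one]

section Matrix

variable {rbar : Γ →* M2 k} {ρbar : ResidualGaloisRep k}

theorem factors_of_isMatrixOf (h : IsMatrixOf rbar ρbar) : GaloisFactorsThroughFiniteLevel rbar := by
  obtain ⟨bbar, hb⟩ := h
  have : rbar = matrixOfBasisRes ρbar bbar := MonoidHom.ext hb
  rw [this]
  exact matrixOfBasisRes_factors ρbar bbar

theorem isUnramifiedAt_of_isMatrixOf (h : IsMatrixOf rbar ρbar) {q : ℕ}
    (hq : ρbar.IsUnramifiedAt q) : Fermat.Agent.TW.Spec.ContractB52.IsUnramifiedAt rbar q := by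
  obtain ⟨bbar, hb⟩ := h
  intro P hP σ hσ
  rw [hb σ, hq P hP σ hσ]
  exact LinearMap.toMatrix_one bbar

end Matrix

variable (p : ℕ) [Fact p.Prime] [Algebra (ZMod p) k] [Module.Finite (ZMod p) k]
  (S : Finset Nat.Primes) (rbar : Γ →* M2 k)

/-- The hypotheses of S55 for `M = ad⁰ rbar`. -/
theorem isSmoothUnramified_adM (hlevel : GaloisFactorsThroughFiniteLevel rbar)
    (hur : ∀ q : Nat.Primes, q ∉ S → Fermat.Agent.TW.Spec.ContractB52.IsUnramifiedAt rbar (q : ℕ)) :
    IsSmoothUnramified p S (adM p rbar) where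
  finite := inferInstanceAs (Module.Finite (ZMod p) (sl2 k))
  smooth m := by
    obtain ⟨L, hL, h⟩ := hlevel
    refine ⟨L, hL, fun s hs => ?_⟩
    have h1 : rbar s = 1 := h s fun x hx => (IntermediateField.mem_fixingSubgroup_iff L s).1 hs x hx
    rw [ad0_ρ_eq_one (ZMod p) rbar h1]
    rfl
  unramified q hq A hA g hg := ad0_ρ_eq_one (ZMod p) rbar (hur q hq A hA g hg)

/-- The hypotheses of S55 for the Tate dual `M' = (ad⁰ rbar)^*(1)`. -/
theorem isSmoothUnramified_adM' (hpS : pPrime p ∈ S)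
    (hlevel : GaloisFactorsThroughFiniteLevel rbar)
    (hur : ∀ q : Nat.Primes, q ∉ S → Fermat.Agent.TW.Spec.ContractB52.IsUnramifiedAt rbar (q : ℕ)) :
    IsSmoothUnramified p S (adM' p rbar) := by
  have hM := isSmoothUnramified_adM p S rbar hlevel hur
  have := hM.finite
  exact
    { finite := Fermat.Agent.PT.BR.DualTwist7.finiteDimensional_dualTwist (adM p rbar)
      smooth := Fermat.Agent.PT.BR.DualTwist7.smooth_dualTwist (adM p rbar) hM.smooth
      unramified := Fermat.Agent.PT.BR.DualTwist7.unram_dualTwist (adM p rbar) hpS hM.unramified }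

end Fermat.Agent.TW.Cocycle.Smooth95
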