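/-
Program TW (S56), WP8 dictionary (helper95): the Tate dual `ad⁰ρbar^*(1)` is the twisted adjoint
module `ad⁰ρbar ⊗ χ` through the trace form `(X, Y) ↦ Tr_{k/F}(tr(XY))`, and classes in
`H¹(GQ, ad0Dual p ρbar)` are the classes of the twisted cocycles of `Sigma76` (helper76).
-/
import Mathlib
import Fermat.Agent.TW.Primes.Sigma76
import Fermat.Agent.TW.Cocycle.ModelIso95

set_option autoImplicit false

namespace Fermat.Agent.TW.Cocycle.TraceDual95

open Fermat.Agent.TW.Cocycle.DualMat95 Fermat.Agent.TW.Cocycle.AdRep95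
open Fermat.Agent.TW.Cocycle.IsoTransport95
open CategoryTheory groupCohomology

local notation "M₂" => Matrix (Fin 2) (Fin 2)

/-! ### The trace pairing on trace-zero matrices -/

section Pairing

variable (F : Type) {k : Type} [Field F] [Field k] [Algebra F k]

/-- The pairing `(X, Y) ↦ Tr_{k/F}(tr(XY))` on trace-zero matrices. -/
noncomputable def trPair : sl2 k →ₗ[F] Module.Dual F (sl2 k) :=
  LinearMap.mk₂ F (fun X Y => Algebra.trace F k (Matrix.trace ((X : M₂ k) * (Y : M₂ k))))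
    (fun X X' Y => by
      show Algebra.trace F k (Matrix.trace (((X : M₂ k) + (X' : M₂ k)) * (Y : M₂ k))) = _
      rw [add_mul, Matrix.trace_add, map_add])
    (fun a X Y => by
      show Algebra.trace F k (Matrix.trace ((a • (X : M₂ k)) * (Y : M₂ k))) = _
      rw [Matrix.smul_mul, Matrix.trace_smul, map_smul])
    (fun X Y Y' => by
      show Algebra.trace F k (Matrix.trace ((X : M₂ k) * ((Y : M₂ k) + (Y' : M₂ k)))) = _
      rw [mul_add, Matrix.trace_add, map_add])
    (fun a X Y => by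
      show Algebra.trace F k (Matrix.trace ((X : M₂ k) * (a • (Y : M₂ k)))) = _
      rw [Matrix.mul_smul, Matrix.trace_smul, map_smul])

theorem trPair_apply (X Y : sl2 k) :
    trPair F X Y = Algebra.trace F k (Matrix.trace ((X : M₂ k) * (Y : M₂ k))) := rfl

/-- A trace-zero matrix orthogonal to all trace-zero matrices for `tr(XY)` vanishes (`2 ≠ 0`). -/
theorem eq_zero_of_trace_mul_eq_zero (h2 : (2 : k) ≠ 0) {X : M₂ k} (hX : X.trace = 0)
    (h : ∀ Y : M₂ k, Y.trace = 0 → (X * Y).trace = 0) : X = 0 := by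
  have h1 := h !![1, 0; 0, -1] (by simp [Matrix.trace_fin_two])
  have h3 := h !![0, 1; 0, 0] (by simp [Matrix.trace_fin_two])
  have h4 := h !![0, 0; 1, 0] (by simp [Matrix.trace_fin_two])
  rw [Matrix.trace_fin_two] at hX
  simp [Matrix.trace_fin_two, Matrix.mul_apply, Fin.sum_univ_two] at h1 h3 h4
  have h00 : X 0 0 = 0 := by
    have : (2 : k) * X 0 0 = 0 := by linear_combination hX + h1
    exact (mul_eq_zero.1 this).resolve_left h2
  have h11 : X 1 1 = 0 := by rw [h00, zero_add] at hX; exact hX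
  ext i j
  fin_cases i <;> fin_cases j <;> simp [h00, h11, h3, h4]

variable [FiniteDimensional F k] [Algebra.IsSeparable F k]

/-- The trace pairing is non-degenerate (for `2 ≠ 0` and `k/F` finite separable). -/
theorem trPair_injective (h2 : (2 : k) ≠ 0) : Function.Injective (trPair F (k := k)) := by
  rw [injective_iff_map_eq_zero]
  intro X hX
  apply Subtype.ext
  apply eq_zero_of_trace_mul_eq_zero h2 (mem_sl2.1 X.2)
  intro Y hY
  apply (traceForm_nondegenerate F k).2
  intro c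
  have h1 : trPair F X (c • (⟨Y, mem_sl2.2 hY⟩ : sl2 k)) = 0 := by rw [hX]; rfl
  rw [trPair_apply] at h1
  rw [Algebra.traceForm_apply]
  have h3 : (((c • (⟨Y, mem_sl2.2 hY⟩ : sl2 k)) : sl2 k) : M₂ k) = c • Y := rfl
  rw [h3, Matrix.mul_smul, Matrix.trace_smul, smul_eq_mul] at h1
  exact h1

/-- The trace pairing as a linear equivalence `sl₂(k) ≃ sl₂(k)^*` over `F`. -/
noncomputable def trPairEquiv (h2 : (2 : k) ≠ 0) : sl2 k ≃ₗ[F] Module.Dual F (sl2 k) :=
  (trPair F (k := k)).linearEquivOfInjective (trPair_injective F h2)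
    Subspace.dual_finrank_eq.symm

@[simp] theorem trPairEquiv_apply (h2 : (2 : k) ≠ 0) (X : sl2 k) :
    trPairEquiv F h2 X = trPair F X := rfl

end Pairing

/-! ### The twisted adjoint module and its identification with the Tate dual -/

section Twist

variable (F : Type) {k : Type} [Field F] [Field k] [Algebra F k]
  {G : Type} [Group G] (r : G →* M₂ k) (χ : G →* Fˣ)

/-- The twisted adjoint module `ad⁰ r ⊗ χ`: carrier `sl₂(k)`, action
`g • X = χ(g) • (r g * X * (r g)⁻¹)`. -/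
noncomputable abbrev twRep : Rep F G := (ad0 F r).twist χ

theorem twRep_ρ_coe (g : G) (X : sl2 k) :
    (((twRep F r χ).ρ g X : sl2 k) : M₂ k) = (χ g : F) • (r g * (X : M₂ k) * r g⁻¹) := rfl

variable [FiniteDimensional F k] [Algebra.IsSeparable F k]

/-- The trace pairing is an equivalence of representations `ad⁰ r ⊗ χ ≃ (ad⁰ r)^* ⊗ χ`. -/
noncomputable def twistDualEquiv (h2 : (2 : k) ≠ 0) :
    ((ad0 F r).ρ.twist χ).Equiv ((ad0 F r).ρ.dual.twist χ) :=
  Representation.Equiv.mk (trPairEquiv F h2) (fun g => by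
    refine LinearMap.ext fun X => LinearMap.ext fun Y => ?_
    show trPair F ((χ g : F) • (ad0 F r).ρ g X) Y =
      (χ g : F) • trPair F X ((ad0 F r).ρ g⁻¹ Y)
    rw [map_smul, LinearMap.smul_apply, trPair_apply, trPair_apply, ad0_ρ_coe, ad0_ρ_coe, inv_inv]
    congr 2
    rw [mul_assoc (r g), mul_assoc (r g), Matrix.trace_mul_comm]
    simp only [mul_assoc])

/-- **`ad⁰ r ⊗ χ ≅ (ad⁰ r)^*(χ)`** (trace form; `2 ≠ 0`, `k/F` finite separable). -/
noncomputable def twistDualIso (h2 : (2 : k) ≠ 0) : twRep F r χ ≅ (ad0 F r).dualTwist χ :=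
  Rep.mkIso (twistDualEquiv F r χ h2)

end Twist

/-! ### Twisted cocycles in the sense of `Sigma76` -/

section Cocycles

open Fermat.Agent.TW.Primes

variable (F : Type) {k : Type} [Field F] [Field k] [Algebra F k]
  {G H : Type} [Group G] [Group H] (r : G →* M₂ k) (χ : G →* Fˣ)
  (hdet : ∀ g, (r g).det = algebraMap F k ((χ g : Fˣ) : F))

include hdet in
theorem twRep_ρ_coe_eq_tw (g : G) (X : sl2 k) :
    (((twRep F r χ).ρ g X : sl2 k) : M₂ k) = Sigma76.tw r g (X : M₂ k) := by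
  rw [twRep_ρ_coe, Sigma76.tw, hdet, algebraMap_smul]

/-- The cocycle of `ad⁰ r ⊗ χ` attached to a twisted cocycle in the sense of `Sigma76`. -/
noncomputable def twCocycle {ψ : G → M₂ k} (hψ : Sigma76.IsCocycle r ψ) :
    cocycles₁ (twRep F r χ) :=
  ⟨fun g => (⟨ψ g, mem_sl2.2 (hψ.trace_eq g)⟩ : sl2 k),
    (mem_cocycles₁_iff (A := twRep F r χ) _).2 fun g h => by
      apply Subtype.ext
      show ψ (g * h) = (((twRep F r χ).ρ g (⟨ψ h, mem_sl2.2 (hψ.trace_eq h)⟩ : sl2 k) : sl2 k) : M₂ k)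
        + ψ g
      rw [twRep_ρ_coe_eq_tw F r χ hdet, hψ.map_mul, add_comm]⟩

@[simp] theorem twCocycle_apply_coe {ψ : G → M₂ k} (hψ : Sigma76.IsCocycle r ψ) (g : G) :
    ((twCocycle F r χ hdet hψ g : sl2 k) : M₂ k) = ψ g := rfl

include hdet in
/-- Every cocycle of `ad⁰ r ⊗ χ` is a twisted cocycle in the sense of `Sigma76`. -/
theorem isCocycle_of_cocycle (c : cocycles₁ (twRep F r χ)) :
    Sigma76.IsCocycle r (fun g => ((c g : sl2 k) : M₂ k)) where
  trace_eq g := mem_sl2.1 (c g : sl2 k).2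
  map_mul g h := by
    have h1 := (mem_cocycles₁_iff (A := twRep F r χ) c).1 c.2 g h
    have h2 := congrArg (Subtype.val : sl2 k → M₂ k) h1
    rw [← twRep_ρ_coe_eq_tw F r χ hdet, add_comm]
    exact h2

theorem twCocycle_of_cocycle (c : cocycles₁ (twRep F r χ)) :
    twCocycle F r χ hdet (isCocycle_of_cocycle F r χ hdet c) = c :=
  cocycles₁_ext fun _ => rfl

/-- The class of the restriction along `f : H →* G` of a twisted cocycle vanishes iff the cocycle is
a coboundary on the image of `f`. -/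
theorem res_H1π_twCocycle_eq_zero_iff (f : H →* G) {ψ : G → M₂ k} (hψ : Sigma76.IsCocycle r ψ) :
    (groupCohomology.map f (𝟙 (Rep.res f (twRep F r χ))) 1).hom
        ((H1π (twRep F r χ)).hom (twCocycle F r χ hdet hψ)) = 0 ↔
      ∃ X : M₂ k, X.trace = 0 ∧ ∀ a : H, ψ (f a) = Sigma76.tw r (f a) X - X := by
  have h1 := H1π_comp_map_apply (A := twRep F r χ) (B := Rep.res f (twRep F r χ)) f
    (𝟙 (Rep.res f (twRep F r χ))) (twCocycle F r χ hdet hψ)
  rw [h1, H1π_eq_zero_iff]
  constructor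
  · rintro ⟨m, hm⟩
    refine ⟨((m : sl2 k) : M₂ k), mem_sl2.1 (m : sl2 k).2, fun a => ?_⟩
    have h2 := congrFun hm a
    have h3 := congrArg (Subtype.val : sl2 k → M₂ k) h2
    rw [← twRep_ρ_coe_eq_tw F r χ hdet]
    exact h3.symm
  · rintro ⟨X, hX0, hX⟩
    refine ⟨(⟨X, mem_sl2.2 hX0⟩ : sl2 k), funext fun a => Subtype.ext ?_⟩
    show (((twRep F r χ).ρ (f a) (⟨X, mem_sl2.2 hX0⟩ : sl2 k) : sl2 k) : M₂ k) - X = ψ (f a)
    rw [twRep_ρ_coe_eq_tw F r χ hdet, hX a]

/-- The class of a twisted cocycle vanishes iff it is a coboundary in the sense of `Sigma76`. -/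
theorem H1π_twCocycle_eq_zero_iff {ψ : G → M₂ k} (hψ : Sigma76.IsCocycle r ψ) :
    (H1π (twRep F r χ)).hom (twCocycle F r χ hdet hψ) = 0 ↔ Sigma76.IsCoboundary r ψ := by
  rw [H1π_eq_zero_iff]
  constructor
  · rintro ⟨m, hm⟩
    refine ⟨((m : sl2 k) : M₂ k), mem_sl2.1 (m : sl2 k).2, fun a => ?_⟩
    have h2 := congrFun hm a
    have h3 := congrArg (Subtype.val : sl2 k → M₂ k) h2
    rw [← twRep_ρ_coe_eq_tw F r χ hdet]
    exact h3.symm
  · rintro ⟨X, hX0, hX⟩
    refine ⟨(⟨X, mem_sl2.2 hX0⟩ : sl2 k), funext fun a => Subtype.ext ?_⟩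
    show (((twRep F r χ).ρ a (⟨X, mem_sl2.2 hX0⟩ : sl2 k) : sl2 k) : M₂ k) - X = ψ a
    rw [twRep_ρ_coe_eq_tw F r χ hdet, hX a]

end Cocycles

/-! ### The End-model: classes in `H¹(GQ, ad0Dual p ρbar)` -/

section EndModel

open Fermat.Agent.TW.Spec Fermat.Agent.TW.Spec.Defs52 Fermat.Agent.TW.Cocycle.ModelIso95
open ExtCitation Fermat.Agent.TW.Primes

variable (p : ℕ) [Fact p.Prime] {k : Type} [Field k] [Algebra (ZMod p) k]
  [Module.Finite (ZMod p) k]
  (ρbar : ResidualGaloisRep k) (b : Module.Basis (Fin 2) k ρbar.V)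
  (r : GQ →* M₂ k) (hb : ∀ σ : GQ, r σ = LinearMap.toMatrix b b (ρbar.ρ σ))
  (hdet : ∀ σ : GQ, (r σ).det = algebraMap (ZMod p) k ((cycloChar p σ : (ZMod p)ˣ) : ZMod p))
  (h2 : (2 : k) ≠ 0)

/-- **The Tate dual of `ad⁰ρbar` is the twisted adjoint module** (trace form). -/
noncomputable def traceDualIso : twRep (ZMod p) r (cycloChar p) ≅ ad0Dual p ρbar :=
  twistDualIso (ZMod p) r (cycloChar p) h2 ≪≫ (modelIsoDual p ρbar b r hb).symm

/-- Explicit formula: `X ↦ (f ↦ Tr_{k/𝔽_p} tr(X · [f]_b))`. -/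
theorem traceDualIso_hom_apply (X : sl2 k) (f : ad0 p ρbar) :
    (show Module.Dual (ZMod p) (ad0 p ρbar) from (traceDualIso p ρbar b r hb h2).hom.hom X) f =
      Algebra.trace (ZMod p) k
        (Matrix.trace ((X : M₂ k) * LinearMap.toMatrix b b (ad0ToEnd p ρbar f))) := rfl

/-- The class in `H¹(GQ, ad0Dual p ρbar)` of a twisted cocycle `ψ` in the sense of `Sigma76`. -/
noncomputable def classOf {ψ : GQ → M₂ k} (hψ : Sigma76.IsCocycle r ψ) : H1 (ad0Dual p ρbar) :=
  H1map (traceDualIso p ρbar b r hb h2).hom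
    ((H1π (twRep (ZMod p) r (cycloChar p))).hom (twCocycle (ZMod p) r (cycloChar p) hdet hψ))

/-- The class of `ψ` is represented by the cocycle `g ↦ (f ↦ Tr_{k/𝔽_p} tr(ψ g · [f]_b))`. -/
theorem classOf_eq_H1π {ψ : GQ → M₂ k} (hψ : Sigma76.IsCocycle r ψ) :
    classOf p ρbar b r hb hdet h2 hψ = (H1π (ad0Dual p ρbar)).hom
      (cocyclesMap (traceDualIso p ρbar b r hb h2).hom
        (twCocycle (ZMod p) r (cycloChar p) hdet hψ)) :=
  H1map_H1π _ _

theorem classOf_eq_zero_iff {ψ : GQ → M₂ k} (hψ : Sigma76.IsCocycle r ψ) :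
    classOf p ρbar b r hb hdet h2 hψ = 0 ↔ Sigma76.IsCoboundary r ψ := by
  rw [classOf, ← H1π_twCocycle_eq_zero_iff (ZMod p) r (cycloChar p) hdet hψ]
  constructor
  · intro h
    apply H1map_injective_of_iso (traceDualIso p ρbar b r hb h2)
    rw [h, map_zero]
  · intro h
    rw [h, map_zero]

/-- Every class of `H¹(GQ, ad0Dual p ρbar)` is the class of a twisted cocycle. -/
theorem exists_classOf_eq (y : H1 (ad0Dual p ρbar)) :
    ∃ (ψ : GQ → M₂ k) (hψ : Sigma76.IsCocycle r ψ), classOf p ρbar b r hb hdet h2 hψ = y := by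
  set Θ := traceDualIso p ρbar b r hb h2 with hΘ
  obtain ⟨x, rfl⟩ : ∃ x, H1map Θ.hom x = y := ⟨(H1Iso Θ).symm y, (H1Iso Θ).apply_symm_apply y⟩
  induction x using H1_induction_on with
  | h c =>
    refine ⟨_, isCocycle_of_cocycle (ZMod p) r (cycloChar p) hdet c, ?_⟩
    rw [classOf, twCocycle_of_cocycle]

/-- A class which is level-constant unramified outside `S` is the class of a twisted cocycle which
is level-constant unramified outside `S`. -/
theorem exists_classOf_eq_of_mem (S : Finset Nat.Primes) {y : H1 (ad0Dual p ρbar)}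
    (hy : y ∈ continuousH1S S (ad0Dual p ρbar)) :
    ∃ (ψ : GQ → M₂ k) (hψ : Sigma76.IsCocycle r ψ), IsLevelConstantS₁ S ψ ∧
      classOf p ρbar b r hb hdet h2 hψ = y := by
  set Θ := traceDualIso p ρbar b r hb h2 with hΘ
  have hx : (H1Iso Θ).symm y ∈ continuousH1S S (twRep (ZMod p) r (cycloChar p)) := by
    apply (H1Iso_mem_continuousH1S_iff S Θ _).1
    rw [LinearEquiv.apply_symm_apply]
    exact hy
  obtain ⟨c, hc, hcx⟩ := (mem_continuousH1S_iff S _ _).1 hx
  refine ⟨_, isCocycle_of_cocycle (ZMod p) r (cycloChar p) hdet c,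
    hc.comp (fun X : sl2 k => (X : M₂ k)), ?_⟩
  rw [classOf, twCocycle_of_cocycle, hcx]
  exact (H1Iso Θ).apply_symm_apply y

/-- **Local criterion.** The restriction to the local group at `q` of the class of `ψ` vanishes iff
`ψ` is a coboundary on the image of the local group. -/
theorem res_classOf_eq_zero_iff (q : Nat.Primes) {ψ : GQ → M₂ k} (hψ : Sigma76.IsCocycle r ψ) :
    resH1At q (ad0Dual p ρbar) (classOf p ρbar b r hb hdet h2 hψ) = 0 ↔
      ∃ X : M₂ k, X.trace = 0 ∧ ∀ τ : primeLocalGaloisGroup q,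
        ψ (locAt q τ) = Sigma76.tw r (locAt q τ) X - X := by
  rw [← res_H1π_twCocycle_eq_zero_iff (ZMod p) r (cycloChar p) hdet (locAt q) hψ]
  set Θ := traceDualIso p ρbar b r hb h2 with hΘ
  have h1 := res_H1map (locAt q) Θ.hom
    ((H1π (twRep (ZMod p) r (cycloChar p))).hom (twCocycle (ZMod p) r (cycloChar p) hdet hψ))
  rw [classOf]
  constructor
  · intro h
    rw [h] at h1
    apply H1map_injective_of_iso ((Rep.resFunctor (locAt q)).mapIso Θ)
    rw [map_zero]
    exact h1.symm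
  · intro h
    refine h1.trans ?_
    rw [h, map_zero]

omit [Module.Finite (ZMod p) k] in
include p in
/-- `2 ≠ 0` in `k` when `p` is odd. -/
theorem two_ne_zero_of_ne_two (hp2 : p ≠ 2) : (2 : k) ≠ 0 := by
  intro h
  have h1 : algebraMap (ZMod p) k ((2 : ℕ) : ZMod p) = 0 := by
    rw [map_natCast]; exact_mod_cast h
  have h3 : ((2 : ℕ) : ZMod p) = 0 := by
    apply (algebraMap (ZMod p) k).injective
    rw [h1, map_zero]
  have h4 : p ∣ 2 := (ZMod.natCast_eq_zero_iff 2 p).1 h3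
  have h5 := Nat.le_of_dvd (by norm_num) h4
  have h6 := (Fact.out : p.Prime).two_le
  omega

end EndModel

end Fermat.Agent.TW.Cocycle.TraceDual95
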